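import Fermat.Agent.X015.Torsion
import Fermat.Prelude.Def_FLTPrelim_ModularRep

/-!
# A reducible mod 3 representation gives an integral root of `y⁴ - 6 c₄ y² - 8 c₆ y - 3 c₄²`
-/

set_option autoImplicit false

namespace FermatAgent.Switch

open WeierstrassCurve WeierstrassCurve.Affine Polynomial

/-- The quartic resolvent of the 3-torsion in terms of `c₄`, `c₆`. -/
def threeQuartic {R : Type*} [CommRing R] (a b y : R) : R :=
  y ^ 4 - 6 * a * y ^ 2 - 8 * b * y - 3 * a ^ 2

lemma map_threeQuartic {R S : Type*} [CommRing R] [CommRing S] (g : R →+* S) (a b y : R) :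
    g (threeQuartic a b y) = threeQuartic (g a) (g b) (g y) := by
  simp [threeQuartic, map_ofNat]

lemma threeQuartic_eq {R : Type*} [CommRing R] (E : WeierstrassCurve R) (x : R) :
    threeQuartic E.c₄ E.c₆ (12 * x + E.b₂) = 6912 * E.Ψ₃.eval x := by
  simp only [threeQuartic, WeierstrassCurve.c₄, WeierstrassCurve.c₆, WeierstrassCurve.Ψ₃, eval_add,
    eval_mul, eval_pow, eval_C, eval_X, eval_ofNat]
  linear_combination -1728 * E.b_relation

theorem exists_int_root_of_reducible (W : WeierstrassCurve ℤ) (hΔ : W.Δ ≠ 0)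
    (hred : ¬ W.ModRepIsIrreducible 3) : ∃ y : ℤ, threeQuartic W.c₄ W.c₆ y = 0 := by
  classical
  have : Fact (Nat.Prime 3) := ⟨Nat.prime_three⟩
  set E : WeierstrassCurve ℚ := W.map (Int.castRingHom ℚ) with hE
  have hΔE : E.Δ ≠ 0 := by
    rw [hE, WeierstrassCurve.map_Δ, eq_intCast]; exact_mod_cast hΔ
  obtain ⟨x, y, h, h3, hσ⟩ := X015.exists_stable_point (E := E) (p := 3) (by decide) hΔE hred
  have hfix : ∀ σ : AlgebraicClosure ℚ ≃ₐ[ℚ] AlgebraicClosure ℚ, σ x = x := by
    intro σ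
    obtain ⟨k, hk, hs⟩ := hσ σ
    obtain ⟨h', e⟩ := X015.algEquiv_smul_some σ h
    refine X015.sigma_x_eq (h := h) (h' := h) ?_
    interval_cases k
    · rw [e, zero_nsmul] at hs; exact absurd hs (Point.some_ne_zero _)
    · exact Or.inl (hs.trans (one_smul _ _))
    · refine Or.inr (hs.trans (eq_neg_of_add_eq_zero_left ?_))
      rw [← succ_nsmul]; exact h3
  obtain ⟨r, rfl⟩ := X015.rational_of_fixed hfix
  rw [Local.nsmul_eq_zero_iff, X015.evalSq_preΨ_iff _ (by decide : Odd 3),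
    show ((3 : ℕ) : ℤ) = 3 from rfl, preΨ_three] at h3
  have hr : E.Ψ₃.eval r = 0 := by
    apply (algebraMap ℚ (AlgebraicClosure ℚ)).injective
    rw [map_zero, ← h3, show (E.toAffine⁄(AlgebraicClosure ℚ)).Ψ₃ =
      E.Ψ₃.map (algebraMap ℚ (AlgebraicClosure ℚ)) from E.map_Ψ₃ _, eval_map,
      eval₂_at_apply]
  have hroot : threeQuartic (W.c₄ : ℚ) (W.c₆ : ℚ) (12 * r + E.b₂) = 0 := by
    have := threeQuartic_eq E r
    rw [hr, mul_zero] at this
    rwa [hE, WeierstrassCurve.map_c₄, WeierstrassCurve.map_c₆, eq_intCast, eq_intCast, ← hE] at this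
  have hint : IsIntegral ℤ (12 * r + E.b₂) := by
    refine ⟨X ^ 4 - C (6 * W.c₄) * X ^ 2 - C (8 * W.c₆) * X - C (3 * W.c₄ ^ 2), by monicity!, ?_⟩
    simp only [threeQuartic] at hroot
    rw [← eval_map]
    simp only [Polynomial.map_sub, Polynomial.map_mul, Polynomial.map_pow, map_X,
      Polynomial.map_intCast, algebraMap_int_eq, eq_intCast, eval_sub,
      eval_mul, eval_pow, eval_X, eval_intCast]
    push_cast
    exact hroot
  obtain ⟨n, hn⟩ := IsIntegrallyClosed.isIntegral_iff.1 hint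
  rw [algebraMap_int_eq, eq_intCast] at hn
  refine ⟨n, ?_⟩
  rw [← hn] at hroot
  have := map_threeQuartic (Int.castRingHom ℚ) W.c₄ W.c₆ n
  simp only [eq_intCast] at this
  rw [hroot] at this
  exact_mod_cast this

end FermatAgent.Switch
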