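import Fermat.Agent.Switch.NoRoot
import Fermat.Prelude.Def_FLTPrelim_Modularity

/-!
# The integral model of the switched curve
-/

set_option autoImplicit false

namespace FermatAgent.Switch

open WeierstrassCurve

section Finite

variable {F : Type*} [Field F] (h330 : (330 : F) ≠ 0)

include h330 in
lemma ne_zero_small : (2 : F) ≠ 0 ∧ (3 : F) ≠ 0 ∧ (5 : F) ≠ 0 ∧ (11 : F) ≠ 0 :=
  ⟨fun e => h330 (by linear_combination (165 : F) * e),
    fun e => h330 (by linear_combination (110 : F) * e),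
    fun e => h330 (by linear_combination (66 : F) * e),
    fun e => h330 (by linear_combination (30 : F) * e)⟩

/-- The trace of Frobenius only depends on `c₄` and `c₆` away from `6`. -/
lemma traceOfFrobenius_eq_c46 (W : WeierstrassCurve F) (h2 : (2 : F) ≠ 0) (h3 : (3 : F) ≠ 0) :
    W.traceOfFrobenius = (c46Curve W.c₄ W.c₆).traceOfFrobenius := by
  classical
  have h6 : (6 : F) ≠ 0 := by
    rw [show (6 : F) = 2 * 3 by norm_num]; exact mul_ne_zero h2 h3
  have h12 : (12 : F) ≠ 0 := by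
    rw [show (12 : F) = 2 * 6 by norm_num]; exact mul_ne_zero h2 h6
  set r : F := -W.b₂ / 12 with hr
  set C : VariableChange F :=
    ⟨(Units.mk0 6 h6)⁻¹, r, -W.a₁ / 2, -(W.a₃ + r * W.a₁) / 2⟩
  have e : C • W = c46Curve W.c₄ W.c₆ := by
    ext <;>
    simp only [C, hr, variableChange_a₁, variableChange_a₂, variableChange_a₃, variableChange_a₄,
      variableChange_a₆, inv_inv, Units.val_mk0, c46Curve, WeierstrassCurve.c₄,
      WeierstrassCurve.c₆, WeierstrassCurve.b₂, WeierstrassCurve.b₄, WeierstrassCurve.b₆] <;>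
    field_simp <;> ring
  rw [← e]
  simp only [WeierstrassCurve.traceOfFrobenius, WeierstrassCurve.card,
    Nat.card_congr (Equiv.ofBijective _ (Local.vcHom_bijective W.toAffine C))]

/-- On the line through a nonsingular pair, `c₄` and the discriminant do not vanish together. -/
lemma not_both_zero (h330 : (330 : F) ≠ 0) {a b d l m C₄ C₆ : F}
    (habd : a ^ 3 - b ^ 2 = 1728 * d) (hd : d ≠ 0) (hm : m ≠ 0)
    (hC₄ : -17424 * C₄ = covHess a b d l m) (hC₆ : -4181760 * C₆ = covJac a b d l m)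
    (h4 : C₄ = 0) (h6 : C₆ = 0) : False := by
  obtain ⟨h2, h3, h5, h11⟩ := ne_zero_small h330
  set j := algebraMap F (AlgebraicClosure F)
  have hn : ∀ n : ℕ, (n : F) ≠ 0 → (n : AlgebraicClosure F) ≠ 0 := fun n h => by
    rw [← map_natCast j]; exact (_root_.map_ne_zero j).2 h
  have h30 : (30 : AlgebraicClosure F) ≠ 0 := hn 30 fun e => h330 (by
    push_cast at e; linear_combination (11 : F) * e)
  have h12 : (12 : AlgebraicClosure F) ≠ 0 := hn 12 (by
    rw [show ((12 : ℕ) : F) = 2 ^ 2 * 3 by norm_num]; exact mul_ne_zero (pow_ne_zero _ h2) h3)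
  have h1728 : (1728 : AlgebraicClosure F) ≠ 0 := hn 1728 (by
    rw [show ((1728 : ℕ) : F) = 2 ^ 6 * 3 ^ 3 by norm_num]
    exact mul_ne_zero (pow_ne_zero _ h2) (pow_ne_zero _ h3))
  have hK₄ : (-17424 : AlgebraicClosure F) ≠ 0 := neg_ne_zero.2 (hn 17424 (by
    rw [show ((17424 : ℕ) : F) = 2 ^ 4 * 3 ^ 2 * 11 ^ 2 by norm_num]
    exact mul_ne_zero (mul_ne_zero (pow_ne_zero _ h2) (pow_ne_zero _ h3)) (pow_ne_zero _ h11)))
  have hK₆ : (-4181760 : AlgebraicClosure F) ≠ 0 := neg_ne_zero.2 (hn 4181760 (by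
    rw [show ((4181760 : ℕ) : F) = 2 ^ 8 * 3 ^ 3 * 5 * 11 ^ 2 by norm_num]
    exact mul_ne_zero (mul_ne_zero (mul_ne_zero (pow_ne_zero _ h2) (pow_ne_zero _ h3)) h5)
      (pow_ne_zero _ h11)))
  obtain ⟨u, v, hH, hT, hF5, hf⟩ := exists_base (a := j a) (b := j b) (d := j d) h30
    (by simpa [map_ofNat] using congrArg j habd) ((_root_.map_ne_zero j).2 hd)
  have hH0 : kleinH (lineU u v (j l) (j m)) (lineV u v (j l) (j m)) = 0 := by
    refine (mul_eq_zero.1 ?_).resolve_left hK₄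
    rw [← covHess_eq _ _ _ _ hf, hH, hT, hF5, ← map_covHess, ← hC₄, h4, mul_zero, map_zero]
  have hT0 : kleinT (lineU u v (j l) (j m)) (lineV u v (j l) (j m)) = 0 := by
    refine (mul_eq_zero.1 ?_).resolve_left hK₆
    rw [← covJac_eq _ _ _ _ hf, hH, hT, hF5, ← map_covJac, ← hC₆, h6, mul_zero, map_zero]
  have hs := klein_syzygy (lineU u v (j l) (j m)) (lineV u v (j l) (j m))
  rw [hH0, hT0] at hs
  have hF0 : kleinF (lineU u v (j l) (j m)) (lineV u v (j l) (j m)) = 0 :=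
    eq_zero_of_pow_eq_zero (n := 5) ((mul_eq_zero.1 (hs.symm.trans (by ring))).resolve_left h1728)
  obtain ⟨hU, hV⟩ := eq_zero_of_kleinF_kleinH h30 hF0 hH0
  exact hm ((_root_.map_eq_zero j).1 (eq_zero_of_line_eq_zero h12 hf hU hV).2)

end Finite

lemma dvd_covHess_sub (a b d n M : ℤ) :
    M ∣ covHess a b d (M * n + 1) M - (-17424) * a := by
  obtain ⟨k, hk⟩ : ∃ k : ℕ, (k : ℤ) = |M| := ⟨M.natAbs, Int.natCast_natAbs M⟩
  rw [← abs_dvd, ← hk, ← ZMod.intCast_zmod_eq_zero_iff_dvd]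
  have hM : (M : ZMod k) = 0 := by
    rw [ZMod.intCast_zmod_eq_zero_iff_dvd, hk, abs_dvd]
  have e := map_covHess (Int.castRingHom (ZMod k)) a b d (M * n + 1) M
  simp only [eq_intCast] at e
  push_cast at e ⊢
  rw [e, hM, zero_mul, zero_add, covHess_one_zero]
  ring

lemma dvd_covJac_sub (a b d n M : ℤ) :
    M ∣ covJac a b d (M * n + 1) M - (-4181760) * b := by
  obtain ⟨k, hk⟩ : ∃ k : ℕ, (k : ℤ) = |M| := ⟨M.natAbs, Int.natCast_natAbs M⟩
  rw [← abs_dvd, ← hk, ← ZMod.intCast_zmod_eq_zero_iff_dvd]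
  have hM : (M : ZMod k) = 0 := by
    rw [ZMod.intCast_zmod_eq_zero_iff_dvd, hk, abs_dvd]
  have e := map_covJac (Int.castRingHom (ZMod k)) a b d (M * n + 1) M
  simp only [eq_intCast] at e
  push_cast at e ⊢
  rw [e, hM, zero_mul, zero_add, covJac_one_zero]
  ring

/-- A reducible mod `3` semistable model can be switched to an irreducible one. -/
theorem exists_switch (W : WeierstrassCurve ℤ) (hΔ : W.Δ ≠ 0) (hW : W.IsSemistableModel)
    (hred : ¬ W.ModRepIsIrreducible 3) (K : ℕ) (hK : 0 < K) :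
    ∃ W' : WeierstrassCurve ℤ, W'.Δ ≠ 0 ∧ W'.IsSemistableModel ∧ W'.ModRepIsIrreducible 3 ∧
      W'.map (Int.castRingHom (ZMod K)) = W.map (Int.castRingHom (ZMod K)) ∧
      ∀ ℓ : ℕ, ℓ.Prime → W.IsGoodPrimeFor ℓ → W'.IsGoodPrimeFor ℓ → ℓ ≠ 5 →
        (5 : ℤ) ∣ (W'.apOfModel ℓ - W.apOfModel ℓ) := by
  obtain ⟨c, hc⟩ := exists_int_root_of_reducible W hΔ hred
  set m₀ : ℕ := 330 * W.Δ.natAbs ^ 2 * K with hm₀
  set M : ℕ := 17424 * 4181760 * 1728 * m₀ with hMdef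
  have hΔpos : 0 < W.Δ.natAbs := Int.natAbs_pos.2 hΔ
  have hm₀pos : 0 < m₀ := by positivity
  have hMpos : 0 < M := by positivity
  have hrel : (W.c₄ : ℚ) ^ 3 - (W.c₆ : ℚ) ^ 2 = 1728 * (W.Δ : ℚ) := by
    exact_mod_cast W.c_relation.symm
  have hcq : threeQuartic (W.c₄ : ℚ) (W.c₆ : ℚ) (c : ℚ) = 0 := by
    have := congrArg (Int.castRingHom ℚ) hc
    rwa [map_threeQuartic, map_zero] at this
  obtain ⟨n, hn⟩ := exists_no_int_root hrel (Int.cast_ne_zero.2 hΔ) hcq hMpos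
  obtain ⟨e, he⟩ := dvd_covHess_sub W.c₄ W.c₆ W.Δ (n : ℤ) (M : ℤ)
  obtain ⟨e', he'⟩ := dvd_covJac_sub W.c₄ W.c₆ W.Δ (n : ℤ) (M : ℤ)
  set α : ℤ := (m₀ : ℤ) * (36 * 4181760 * e) with hα
  set β : ℤ := (m₀ : ℤ) * (3 * 4181760 * W.b₂ * e + 34848 * e') with hβ
  set W' : WeierstrassCurve ℤ := { W with a₄ := W.a₄ + α, a₆ := W.a₆ + β } with hW'
  have hMc : (M : ℤ) = 17424 * 4181760 * 1728 * m₀ := by rw [hMdef]; push_cast; ring
  have hC₄ : -17424 * W'.c₄ = covHess W.c₄ W.c₆ W.Δ ((M : ℤ) * n + 1) M := by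
    rw [eq_add_of_sub_eq he, hMc]
    simp only [hW', hα, WeierstrassCurve.c₄, WeierstrassCurve.b₂, WeierstrassCurve.b₄]
    ring
  have hC₆ : -4181760 * W'.c₆ = covJac W.c₄ W.c₆ W.Δ ((M : ℤ) * n + 1) M := by
    rw [eq_add_of_sub_eq he', hMc]
    simp only [hW', hα, hβ, WeierstrassCurve.c₆, WeierstrassCurve.b₂, WeierstrassCurve.b₄,
      WeierstrassCurve.b₆]
    ring
  have hcast : ∀ k : ℕ, (k : ℤ) ∣ m₀ → W'.map (Int.castRingHom (ZMod k)) =
      W.map (Int.castRingHom (ZMod k)) := by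
    intro k hk
    have hz : ((m₀ : ℤ) : ZMod k) = 0 := (ZMod.intCast_zmod_eq_zero_iff_dvd _ _).2 hk
    ext <;> simp only [hW', hα, hβ, map_a₁, map_a₂, map_a₃, map_a₄, map_a₆, map_add, map_mul,
      eq_intCast, hz, zero_mul, add_zero]
  have hΔcast : ∀ k : ℕ, (k : ℤ) ∣ m₀ → ((W'.Δ : ℤ) : ZMod k) = (W.Δ : ZMod k) := by
    intro k hk
    have := congrArg WeierstrassCurve.Δ (hcast k hk)
    simpa only [WeierstrassCurve.map_Δ, eq_intCast] using this
  have hΔ' : W'.Δ ≠ 0 := by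
    intro e0
    have h := hΔcast m₀ dvd_rfl
    rw [e0, Int.cast_zero, eq_comm, ZMod.intCast_zmod_eq_zero_iff_dvd, Int.natCast_dvd] at h
    have := Nat.le_of_dvd hΔpos h
    rw [hm₀] at this
    nlinarith [Nat.mul_le_mul_left (330 * W.Δ.natAbs ^ 2) hK]
  -- away from `m₀`
  have hbad : ∀ p : ℕ, p.Prime → ¬ (p : ℤ) ∣ m₀ →
      (330 : ZMod p) ≠ 0 ∧ (W.Δ : ZMod p) ≠ 0 ∧ (((M : ℤ)) : ZMod p) ≠ 0 := by
    intro p hp hpm
    have := Fact.mk hp
    rw [← ZMod.intCast_zmod_eq_zero_iff_dvd, Int.cast_natCast, hm₀, Nat.cast_mul, Nat.cast_mul,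
      Nat.cast_pow, mul_eq_zero, mul_eq_zero, not_or, not_or] at hpm
    obtain ⟨⟨h330, hΔp⟩, hKp⟩ := hpm
    obtain ⟨h2, h3, h5, h11⟩ := ne_zero_small (F := ZMod p) (by exact_mod_cast h330)
    refine ⟨by exact_mod_cast h330, fun e0 => hΔp ?_, ?_⟩
    · rw [ZMod.intCast_zmod_eq_zero_iff_dvd, Int.natCast_dvd] at e0
      rw [(ZMod.natCast_eq_zero_iff _ _).2 e0]
      exact zero_pow two_ne_zero
    · rw [Int.cast_natCast, hMdef, hm₀]
      push_cast
      refine mul_ne_zero ?_ (mul_ne_zero (mul_ne_zero (by exact_mod_cast h330) hΔp) hKp)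
      rw [show (125907240222720 : ZMod p) = 2 ^ 18 * 3 ^ 8 * 5 * 11 ^ 4 by norm_num]
      exact mul_ne_zero (mul_ne_zero (mul_ne_zero (pow_ne_zero _ h2) (pow_ne_zero _ h3)) h5)
        (pow_ne_zero _ h11)
  refine ⟨W', hΔ', fun p hp hpΔ hp4 => ?_, ?_,
    hcast K (Int.natCast_dvd_natCast.2 ⟨330 * W.Δ.natAbs ^ 2, by rw [hm₀, mul_comm]⟩),
    fun ℓ hℓ hgood hgood' _ => ?_⟩
  · by_cases hpm : (p : ℤ) ∣ m₀
    · have h4 := congrArg WeierstrassCurve.c₄ (hcast p hpm)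
      simp only [WeierstrassCurve.map_c₄, eq_intCast] at h4
      rw [← ZMod.intCast_zmod_eq_zero_iff_dvd] at hpΔ hp4
      exact hW p hp ((ZMod.intCast_zmod_eq_zero_iff_dvd _ _).1 ((hΔcast p hpm).symm.trans hpΔ))
        ((ZMod.intCast_zmod_eq_zero_iff_dvd _ _).1 (h4.symm.trans hp4))
    · have := Fact.mk hp
      obtain ⟨h330, hΔp, hMp⟩ := hbad p hp hpm
      rw [← ZMod.intCast_zmod_eq_zero_iff_dvd] at hpΔ hp4
      set φ := Int.castRingHom (ZMod p)
      have h6 : φ W'.c₆ = 0 := by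
        have := congrArg φ W'.c_relation
        rw [map_mul, map_sub, map_pow, map_pow, show φ W'.Δ = 0 from hpΔ,
          show φ W'.c₄ = 0 from hp4, mul_zero, zero_pow three_ne_zero, zero_sub] at this
        exact eq_zero_of_pow_eq_zero (n := 2) (by linear_combination this)
      refine not_both_zero h330 (a := φ W.c₄) (b := φ W.c₆) (d := φ W.Δ)
        (l := φ ((M : ℤ) * n + 1)) (m := φ M) (C₄ := φ W'.c₄) (C₆ := φ W'.c₆) ?_ hΔp hMp ?_ ?_
        hp4 h6
      · have := congrArg φ W.c_relation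
        simpa [map_ofNat] using this.symm
      · rw [← map_covHess, ← hC₄, map_mul]; simp
      · rw [← map_covJac, ← hC₆, map_mul]; simp
  · by_contra hirr
    obtain ⟨y, hy⟩ := exists_int_root_of_reducible W' hΔ' hirr
    refine hn y ?_
    rw [eval_polyC₄, eval_polyC₆]
    have e₁ := congrArg (Int.castRingHom ℚ) hC₄
    have e₂ := congrArg (Int.castRingHom ℚ) hC₆
    rw [map_mul, map_covHess] at e₁
    rw [map_mul, map_covJac] at e₂
    simp only [map_neg, map_ofNat, eq_intCast, map_natCast, Int.cast_add, Int.cast_mul,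
      Int.cast_one, Int.cast_natCast] at e₁ e₂
    rw [← e₁, ← e₂, inv_mul_cancel_left₀ (by norm_num), inv_mul_cancel_left₀ (by norm_num)]
    have := congrArg (Int.castRingHom ℚ) hy
    rwa [map_threeQuartic, map_zero] at this
  · by_cases hℓm : (ℓ : ℤ) ∣ m₀
    · rw [WeierstrassCurve.apOfModel, WeierstrassCurve.apOfModel, WeierstrassCurve.reductionMod,
        WeierstrassCurve.reductionMod, hcast ℓ hℓm, sub_self]
      exact dvd_zero _
    have := Fact.mk hℓ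
    obtain ⟨h330, hΔℓ, hMℓ⟩ := hbad ℓ hℓ hℓm
    obtain ⟨h2, h3, -, -⟩ := ne_zero_small h330
    set φ := Int.castRingHom (ZMod ℓ)
    have hC : φ W'.c₄ ^ 3 - φ W'.c₆ ^ 2 ≠ 0 := by
      rw [← map_pow, ← map_pow, ← map_sub, ← W'.c_relation, map_mul]
      refine mul_ne_zero ?_ fun e0 => hgood' ((ZMod.intCast_zmod_eq_zero_iff_dvd _ _).1 e0)
      rw [map_ofNat, show (1728 : ZMod ℓ) = 2 ^ 6 * 3 ^ 3 by norm_num]
      exact mul_ne_zero (pow_ne_zero _ h2) (pow_ne_zero _ h3)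
    rw [WeierstrassCurve.apOfModel, WeierstrassCurve.apOfModel, WeierstrassCurve.reductionMod,
      WeierstrassCurve.reductionMod, traceOfFrobenius_eq_c46 (W'.map φ) h2 h3,
      traceOfFrobenius_eq_c46 (W.map φ) h2 h3]
    simp only [WeierstrassCurve.map_c₄, WeierstrassCurve.map_c₆]
    refine trace_congr h330 (l := φ ((M : ℤ) * n + 1)) (m := φ M) (d := φ W.Δ) ?_ hΔℓ ?_ ?_ hC
    · have := congrArg φ W.c_relation
      simpa [map_ofNat] using this.symm
    · rw [← map_covHess, ← hC₄, map_mul]; simp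
    · rw [← map_covJac, ← hC₆, map_mul]; simp

end FermatAgent.Switch
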