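import Fermat.Agent.Switch.Forms

/-!
# The universal point of order 5 on `y² = x³ - 27 H x - 54 T`: equation and doubling identities
-/

set_option autoImplicit false

namespace FermatAgent.Switch

variable {R : Type*} [CommRing R] (u v : R)

theorem pt_on_curve :
    ptY u v ^ 2 = ptX u v ^ 3 - 27 * kleinH u v * ptX u v - 54 * kleinT u v := by
  simp only [kleinH, kleinT, ptX, ptY]; ring

theorem pt₂_on_curve :
    ptY₂ u v ^ 2 = ptX₂ u v ^ 3 - 27 * kleinH u v * ptX₂ u v - 54 * kleinT u v := by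
  simp only [kleinH, kleinT, ptX₂, ptY₂]; ring

theorem pt_double_x :
    (3 * ptX u v ^ 2 - 27 * kleinH u v) ^ 2 =
      (2 * ptY u v) ^ 2 * (ptX₂ u v + 2 * ptX u v) := by
  simp only [kleinH, ptX, ptY, ptX₂]; ring

theorem pt_double_y :
    (3 * ptX u v ^ 2 - 27 * kleinH u v) * (ptX u v - ptX₂ u v) =
      2 * ptY u v * (ptY₂ u v + ptY u v) := by
  simp only [kleinH, ptX, ptY, ptX₂, ptY₂]; ring

theorem pt₂_double_x :
    (3 * ptX₂ u v ^ 2 - 27 * kleinH u v) ^ 2 =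
      (2 * ptY₂ u v) ^ 2 * (ptX u v + 2 * ptX₂ u v) := by
  simp only [kleinH, ptX, ptY₂, ptX₂]; ring

theorem pt₂_double_y :
    (3 * ptX₂ u v ^ 2 - 27 * kleinH u v) * (ptX₂ u v - ptX u v) =
      2 * ptY₂ u v * (-ptY u v + ptY₂ u v) := by
  simp only [kleinH, ptX, ptY, ptX₂, ptY₂]; ring

end FermatAgent.Switch
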