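import Fermat.Agent.Switch.Covariants
import Fermat.Agent.Switch.UniversalPoint

/-!
# Parameters with prescribed invariants, and non-vanishing of Klein's forms
-/

set_option autoImplicit false

namespace FermatAgent.Switch

open Polynomial

variable {K : Type*} [Field K]

lemma kleinH_zero_left (v : K) : kleinH 0 v = v ^ 20 := by simp only [kleinH]; ring

lemma kleinH_zero_right (u : K) : kleinH u 0 = u ^ 20 := by simp only [kleinH]; ring

/-- `f` and `H` have no common zero except the origin. -/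
theorem eq_zero_of_kleinF_kleinH (h30 : (30 : K) ≠ 0) {u v : K} (hF : kleinF u v = 0)
    (hH : kleinH u v = 0) : u = 0 ∧ v = 0 := by
  have hsplit : kleinF u v = u * v * (v ^ 10 - 11 * u ^ 5 * v ^ 5 - u ^ 10) := by
    simp only [kleinF]; ring
  rw [hsplit, mul_eq_zero, mul_eq_zero] at hF
  rcases hF with (rfl | rfl) | hg
  · rw [kleinH_zero_left] at hH; exact ⟨rfl, eq_zero_of_pow_eq_zero hH⟩
  · rw [kleinH_zero_right] at hH; exact ⟨eq_zero_of_pow_eq_zero hH, rfl⟩
  -- `b = v⁵`, `a = u⁵`: `b² = 11 a b + a²` and `H = 0`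
  have h5 : (5 : K) ≠ 0 := fun h => h30 (by linear_combination (6 : K) * h)
  simp only [kleinH] at hH
  set a := u ^ 5 with ha
  set b := v ^ 5 with hb
  have hg' : b ^ 2 - 11 * a * b - a ^ 2 = 0 := by rw [ha, hb]; linear_combination hg
  have hH' : a ^ 4 - 228 * a ^ 3 * b + 494 * a ^ 2 * b ^ 2 + 228 * a * b ^ 3 + b ^ 4 = 0 := by
    rw [ha, hb]; linear_combination hH
  have key : (5 : K) ^ 5 * a ^ 3 * (a + 11 * b) = 0 := by
    linear_combination hH' - (b ^ 2 + 239 * a * b + 3124 * a ^ 2) * hg'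
  have hab : a = 0 ∧ b = 0 := by
    simp only [mul_eq_zero, pow_eq_zero_iff', h5, false_and, false_or] at key
    rcases key with ⟨h, -⟩ | h
    · exact ⟨h, eq_zero_of_pow_eq_zero (n := 2) (by rw [h] at hg'; linear_combination hg')⟩
    · have hb0 : b = 0 := eq_zero_of_pow_eq_zero (n := 2) (by
        linear_combination hg' + a * h)
      exact ⟨by linear_combination h - 11 * hb0, hb0⟩
  exact ⟨eq_zero_of_pow_eq_zero (ha ▸ hab.1), eq_zero_of_pow_eq_zero (hb ▸ hab.2)⟩

lemma kleinH_smul (c u v : K) : kleinH (c * u) (c * v) = c ^ 20 * kleinH u v := by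
  simp only [kleinH]; ring

lemma kleinT_smul (c u v : K) : kleinT (c * u) (c * v) = c ^ 30 * kleinT u v := by
  simp only [kleinT]; ring

/-- The line through a parameter with `f ≠ 0` meets the origin only at `(0, 0)`. -/
theorem eq_zero_of_line_eq_zero (h12 : (12 : K) ≠ 0) {u v l m : K} (hf : kleinF u v ≠ 0)
    (hU : lineU u v l m = 0) (hV : lineV u v l m = 0) : l = 0 ∧ m = 0 := by
  simp only [lineU, lineV] at hU hV
  have he := klein_euler u v
  have hm : m * (12 * kleinF u v) = 0 := by rw [← he]; linear_combination v * hU - u * hV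
  have hl : l * (12 * kleinF u v) = 0 := by
    rw [← he]; linear_combination kleinFu u v * hU + kleinFv u v * hV
  simp only [mul_eq_zero, h12, hf, or_self, or_false] at hl hm
  exact ⟨hl, hm⟩

/-- Every nonsingular pair `(c₄, c₆)` comes from a parameter. -/
theorem exists_base [IsAlgClosed K] (h30 : (30 : K) ≠ 0) {a b d : K}
    (h : a ^ 3 - b ^ 2 = 1728 * d) (hd : d ≠ 0) :
    ∃ u v : K, kleinH u v = a ∧ kleinT u v = b ∧ kleinF u v ^ 5 = d ∧ kleinF u v ≠ 0 := by
  have h1728 : (1728 : K) ≠ 0 := by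
    intro e
    have h2 : (2 : K) ≠ 0 := fun e' => h30 (by linear_combination (15 : K) * e')
    have h3 : (3 : K) ≠ 0 := fun e' => h30 (by linear_combination (10 : K) * e')
    have : (2 : K) ^ 6 * 3 ^ 3 = 0 := by linear_combination e
    simp [h2, h3] at this
  -- a parameter with the same `j`
  set j : K := a ^ 3 / d
  let P : K[X] := (kleinH (X : K[X]) 1) ^ 3 - C j * (kleinF (X : K[X]) 1) ^ 5
  have hmap : ∀ z : K, P.eval z = kleinH z 1 ^ 3 - j * kleinF z 1 ^ 5 := fun z => by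
    simp [P, kleinH, kleinF]
  have hdeg : P.natDegree = 60 := by
    simp only [P, kleinH, kleinF]
    compute_degree!
  obtain ⟨τ, hτ⟩ := IsAlgClosed.exists_root P (by
    intro e; rw [natDegree_eq_of_degree_eq_some e] at hdeg; simp at hdeg)
  rw [IsRoot.def, hmap, sub_eq_zero] at hτ
  set H := kleinH τ 1 with hH
  set T := kleinT τ 1 with hT
  set f := kleinF τ 1 with hF
  have hsyz : H ^ 3 - T ^ 2 = 1728 * f ^ 5 := klein_syzygy τ 1
  have hf : f ≠ 0 := fun e => one_ne_zero (eq_zero_of_kleinF_kleinH h30 e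
    (eq_zero_of_pow_eq_zero (n := 3) (by rw [hτ, e]; ring))).2
  have hjd : j * d = a ^ 3 := div_mul_cancel₀ _ hd
  have hH3 : H ^ 3 * d = a ^ 3 * f ^ 5 := by rw [hτ, ← hjd]; ring
  have hT2 : T ^ 2 * d = b ^ 2 * f ^ 5 := by
    linear_combination hH3 - d * hsyz + f ^ 5 * h
  -- choose `r = s ^ 10`
  obtain ⟨r, hr2, hr3⟩ : ∃ r : K, r ^ 2 * H = a ∧ r ^ 3 * T = b := by
    rcases eq_or_ne T 0 with hT0 | hT0
    · have hb : b = 0 := by
        have : b ^ 2 * f ^ 5 = 0 := by rw [← hT2, hT0]; ring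
        simpa [hf] using this
      have hH0 : H ≠ 0 := fun e => by rw [e, hT0] at hsyz; simp [hf, h1728] at hsyz
      obtain ⟨r, hr⟩ := IsAlgClosed.exists_pow_nat_eq (a / H) (n := 2) two_pos
      exact ⟨r, by rw [hr, div_mul_cancel₀ _ hH0], by rw [hT0, hb, mul_zero]⟩
    rcases eq_or_ne H 0 with hH0 | hH0
    · have ha : a = 0 := by
        have : a ^ 3 * f ^ 5 = 0 := by rw [← hH3, hH0]; ring
        simpa [hf] using this
      obtain ⟨r, hr⟩ := IsAlgClosed.exists_pow_nat_eq (b / T) (n := 3) three_pos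
      exact ⟨r, by rw [hH0, ha, mul_zero], by rw [hr, div_mul_cancel₀ _ hT0]⟩
    obtain ⟨r, hr⟩ := IsAlgClosed.exists_pow_nat_eq (a / H) (n := 2) two_pos
    have hra : r ^ 2 * H = a := by rw [hr, div_mul_cancel₀ _ hH0]
    have hsq : (r ^ 3 * T) ^ 2 = b ^ 2 := by
      refine mul_right_cancel₀ (mul_ne_zero (pow_ne_zero 3 hH0) hd) ?_
      linear_combination (r ^ 6 * H ^ 3) * hT2 - b ^ 2 * hH3
        + (b ^ 2 * f ^ 5) * ((r ^ 2 * H) ^ 2 + r ^ 2 * H * a + a ^ 2) * hra
    rcases eq_or_eq_neg_of_sq_eq_sq _ _ hsq with e | e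
    · exact ⟨r, hra, e⟩
    · exact ⟨-r, by rw [neg_sq]; exact hra, by linear_combination -e⟩
  obtain ⟨s, hs⟩ := IsAlgClosed.exists_pow_nat_eq r (n := 10) (by norm_num)
  refine ⟨s * τ, s * 1, ?_, ?_, ?_, ?_⟩
  · rw [kleinH_smul, ← hH, show s ^ 20 = (s ^ 10) ^ 2 by ring, hs, hr2]
  · rw [kleinT_smul, ← hT, show s ^ 30 = (s ^ 10) ^ 3 by ring, hs, hr3]
  all_goals
    have hd' : kleinF (s * τ) (s * 1) ^ 5 = d := by
      refine mul_left_cancel₀ h1728 ?_
      rw [← klein_syzygy, ← h, kleinH_smul, kleinT_smul, ← hH, ← hT,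
        show s ^ 20 = (s ^ 10) ^ 2 by ring, show s ^ 30 = (s ^ 10) ^ 3 by ring, hs, hr2, hr3]
    first
      | exact hd'
      | exact fun e => hd (by rw [← hd', e]; ring)

end FermatAgent.Switch
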