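import Fermat.Agent.Hasse.Reduction

/-!
# Places of a rational function field at a finite point

`placeAt s` is the ring of rational functions defined at `s`, `evalAt s` its residue map.
-/

set_option autoImplicit false

namespace FermatAgent.Switch

open Polynomial

variable {Ω : Type*} [Field Ω] (s : Ω)

lemma eval_denom_ne_zero_of_dvd {z : RatFunc Ω} {p : Ω[X]} (h : z.denom ∣ p) (hp : p.eval s ≠ 0) :
    z.denom.eval s ≠ 0 := fun e => hp (eval_eq_zero_of_dvd_of_eval_eq_zero h e)

lemma mem_or_inv_mem_aux (z : RatFunc Ω) : z.denom.eval s ≠ 0 ∨ z⁻¹.denom.eval s ≠ 0 := by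
  by_contra! h
  rcases eq_or_ne z 0 with rfl | hz
  · simp at h
  obtain ⟨u, v, e⟩ := RatFunc.isCoprime_num_denom z
  have hn : z.num.eval s = 0 :=
    eval_eq_zero_of_dvd_of_eval_eq_zero (RatFunc.denom_inv_dvd hz) h.2
  have := congrArg (eval s) e
  simp [hn, h.1] at this

/-- The valuation subring of rational functions defined at `s`. -/
noncomputable def placeAt : ValuationSubring (RatFunc Ω) where
  carrier := {z | z.denom.eval s ≠ 0}
  mul_mem' {x y} hx hy := eval_denom_ne_zero_of_dvd s (RatFunc.denom_mul_dvd x y)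
    (by rw [eval_mul]; exact mul_ne_zero hx hy)
  one_mem' := by simp
  add_mem' {x y} hx hy := eval_denom_ne_zero_of_dvd s (RatFunc.denom_add_dvd x y)
    (by rw [eval_mul]; exact mul_ne_zero hx hy)
  zero_mem' := by simp
  neg_mem' {x} hx := eval_denom_ne_zero_of_dvd s (z := -x) (p := x.denom) (by
    conv_lhs => rw [show -x = algebraMap Ω[X] _ (-x.num) / algebraMap Ω[X] _ x.denom by
      rw [map_neg, neg_div, RatFunc.num_div_denom]]
    exact RatFunc.denom_div_dvd _ _) hx
  mem_or_inv_mem' z := mem_or_inv_mem_aux s z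

lemma mem_placeAt {z : RatFunc Ω} : z ∈ placeAt s ↔ z.denom.eval s ≠ 0 := Iff.rfl

lemma div_mem_placeAt {p r : Ω[X]} (hr : r.eval s ≠ 0) :
    algebraMap Ω[X] (RatFunc Ω) p / algebraMap Ω[X] (RatFunc Ω) r ∈ placeAt s :=
  eval_denom_ne_zero_of_dvd s (RatFunc.denom_div_dvd p r) hr

lemma algebraMap_mem_placeAt (p : Ω[X]) : algebraMap Ω[X] (RatFunc Ω) p ∈ placeAt s := by
  rw [mem_placeAt, RatFunc.denom_algebraMap]; simp

lemma eval_div_eq {z : RatFunc Ω} {p r : Ω[X]} (hr : r.eval s ≠ 0) (hz : z.denom.eval s ≠ 0)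
    (h : z = algebraMap Ω[X] _ p / algebraMap Ω[X] _ r) :
    z.num.eval s / z.denom.eval s = p.eval s / r.eval s := by
  have hr0 : r ≠ 0 := fun e => hr (by rw [e, eval_zero])
  have e : z.num * r = p * z.denom := by
    apply RatFunc.algebraMap_injective Ω
    rw [map_mul, map_mul, ← div_eq_div_iff
      ((map_ne_zero_iff _ (RatFunc.algebraMap_injective Ω)).2 z.denom_ne_zero)
      ((map_ne_zero_iff _ (RatFunc.algebraMap_injective Ω)).2 hr0), RatFunc.num_div_denom, h]
  rw [div_eq_div_iff hz hr, ← eval_mul, ← eval_mul, e]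

/-- Evaluation at `s`. -/
noncomputable def evalAt : placeAt s →+* Ω where
  toFun z := (z : RatFunc Ω).num.eval s / (z : RatFunc Ω).denom.eval s
  map_one' := by simp
  map_zero' := by simp
  map_mul' x y := by
    have hx : (x : RatFunc Ω).denom.eval s ≠ 0 := x.2
    have hy : (y : RatFunc Ω).denom.eval s ≠ 0 := y.2
    rw [eval_div_eq s (p := (x : RatFunc Ω).num * (y : RatFunc Ω).num)
      (r := (x : RatFunc Ω).denom * (y : RatFunc Ω).denom) (by simp [hx, hy]) (x * y).2
      (by rw [map_mul, map_mul, ← div_mul_div_comm, RatFunc.num_div_denom, RatFunc.num_div_denom]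
          rfl)]
    simp [div_mul_div_comm]
  map_add' x y := by
    have hx : (x : RatFunc Ω).denom.eval s ≠ 0 := x.2
    have hy : (y : RatFunc Ω).denom.eval s ≠ 0 := y.2
    rw [eval_div_eq s (p := (x : RatFunc Ω).num * (y : RatFunc Ω).denom +
      (x : RatFunc Ω).denom * (y : RatFunc Ω).num)
      (r := (x : RatFunc Ω).denom * (y : RatFunc Ω).denom) (by simp [hx, hy]) (x + y).2
      (by rw [map_add, map_mul, map_mul, map_mul, ← div_add_div _ _
            ((map_ne_zero_iff _ (RatFunc.algebraMap_injective Ω)).2 (RatFunc.denom_ne_zero _))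
            ((map_ne_zero_iff _ (RatFunc.algebraMap_injective Ω)).2 (RatFunc.denom_ne_zero _)),
            RatFunc.num_div_denom, RatFunc.num_div_denom]
          rfl)]
    simp [div_add_div _ _ hx hy]

lemma evalAt_div {p r : Ω[X]} (hr : r.eval s ≠ 0) :
    evalAt s ⟨_, div_mem_placeAt s (p := p) hr⟩ = p.eval s / r.eval s :=
  eval_div_eq s hr (div_mem_placeAt s hr) rfl

lemma evalAt_algebraMap (p : Ω[X]) :
    evalAt s ⟨_, algebraMap_mem_placeAt s p⟩ = p.eval s := by
  show (algebraMap Ω[X] (RatFunc Ω) p).num.eval s / (algebraMap Ω[X] (RatFunc Ω) p).denom.eval s = _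
  rw [RatFunc.num_algebraMap, RatFunc.denom_algebraMap, eval_one, div_one]

lemma valuation_lt_one_iff_evalAt (z : placeAt s) :
    (placeAt s).valuation (z : RatFunc Ω) < 1 ↔ evalAt s z = 0 := by
  rw [← ValuationSubring.valuation_lt_one_iff, IsLocalRing.mem_maximalIdeal, mem_nonunits_iff,
    ← not_iff_not, not_not]
  refine ⟨fun h => (h.map (evalAt s)).ne_zero, fun h => ?_⟩
  have hn : (z : RatFunc Ω).num.eval s ≠ 0 := fun e => h (by
    show (z : RatFunc Ω).num.eval s / _ = 0
    rw [e, zero_div])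
  have hz0 : (z : RatFunc Ω) ≠ 0 := fun e => hn (by rw [e, RatFunc.num_zero, eval_zero])
  have hmem : (z : RatFunc Ω)⁻¹ ∈ placeAt s :=
    eval_denom_ne_zero_of_dvd s (RatFunc.denom_inv_dvd hz0) hn
  exact isUnit_iff_exists_inv.2 ⟨⟨_, hmem⟩, Subtype.ext (mul_inv_cancel₀ hz0)⟩

end FermatAgent.Switch
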