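import Fermat.Agent.Switch.FivePoint
import Fermat.Agent.Switch.LinePlace
import Fermat.Agent.Hasse.Main
import Fermat.Agent.Local.PointMaps

/-!
# Congruence of traces of Frobenius along the Rubin-Silverberg line

Rigidity: the universal point of order 5 along the line specialises injectively at both ends and
commutes with the coefficientwise Frobenius, so `φ² - a φ + q` for either end kills it.
-/

set_option autoImplicit false

namespace FermatAgent.Switch

open WeierstrassCurve Polynomial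
open scoped WeierstrassCurve.Affine

section MapLemmas

variable {R S : Type*} [CommRing R] [CommRing S] (g : R →+* S)

lemma map_covHess (a b d l m : R) :
    g (covHess a b d l m) = covHess (g a) (g b) (g d) (g l) (g m) := by
  simp [covHess, covDll, covDlm, covDmm, map_ofNat]

lemma map_covJac (a b d l m : R) :
    g (covJac a b d l m) = covJac (g a) (g b) (g d) (g l) (g m) := by
  simp [covJac, covDl, covDm, covDll, covDlm, covDmm, covDlll, covDllm, covDlmm, covDmmm, map_ofNat]

lemma map_kleinF (u v : R) : g (kleinF u v) = kleinF (g u) (g v) := by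
  simp [kleinF, map_ofNat]

lemma map_kleinH (u v : R) : g (kleinH u v) = kleinH (g u) (g v) := by
  simp [kleinH, map_ofNat]

lemma map_kleinT (u v : R) : g (kleinT u v) = kleinT (g u) (g v) := by
  simp [kleinT, map_ofNat]

lemma map_lineU (u v l m : R) : g (lineU u v l m) = lineU (g u) (g v) (g l) (g m) := by
  simp [lineU, kleinFv, map_ofNat]

lemma map_lineV (u v l m : R) : g (lineV u v l m) = lineV (g u) (g v) (g l) (g m) := by
  simp [lineV, kleinFu, map_ofNat]

end MapLemmas

variable {F : Type*} [Field F] [Fintype F] (Ω : Type*) [Field Ω] [Algebra F Ω]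

local notation "q" => Fintype.card F

/-- Coefficientwise Frobenius on `Ω(s)`. -/
noncomputable def coeffFrob : RatFunc Ω →+* RatFunc Ω :=
  RatFunc.mapRingHom (Polynomial.mapRingHom (FiniteField.frobeniusAlgHom F Ω).toRingHom)
    (nonZeroDivisors_le_comap_nonZeroDivisors_of_injective _
      (Polynomial.map_injective _ (FiniteField.frobeniusAlgHom F Ω).injective))

lemma coeffFrob_div (p r : (Polynomial Ω)) :
    coeffFrob (F := F) Ω (algebraMap (Polynomial Ω) _ p / algebraMap (Polynomial Ω) _ r) =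
      algebraMap (Polynomial Ω) _ (p.map (FiniteField.frobeniusAlgHom F Ω).toRingHom) /
        algebraMap (Polynomial Ω) _ (r.map (FiniteField.frobeniusAlgHom F Ω).toRingHom) := by
  rw [coeffFrob, RatFunc.coe_mapRingHom_eq_coe_map, RatFunc.map_apply_div]
  rfl

lemma coeffFrob_algebraMap (p : (Polynomial Ω)) :
    coeffFrob (F := F) Ω (algebraMap (Polynomial Ω) _ p) =
      algebraMap (Polynomial Ω) _ (p.map (FiniteField.frobeniusAlgHom F Ω).toRingHom) := by
  have := coeffFrob_div (F := F) Ω p 1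
  simpa using this

variable {Ω}

lemma eval_map_frob (p : (Polynomial Ω)) {s : Ω} (hs : s ^ q = s) :
    (p.map (FiniteField.frobeniusAlgHom F Ω).toRingHom).eval s = p.eval s ^ q := by
  have h := Polynomial.eval_map_apply (f := (FiniteField.frobeniusAlgHom F Ω).toRingHom) (p := p) s
  rw [show (FiniteField.frobeniusAlgHom F Ω).toRingHom s = s from hs] at h
  exact h

lemma coeffFrob_mem {s : Ω} (hs : s ^ q = s) {z : RatFunc Ω} (hz : z ∈ placeAt s) :
    ∃ h : coeffFrob (F := F) Ω z ∈ placeAt s,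
      evalAt s ⟨_, h⟩ = evalAt s ⟨z, hz⟩ ^ q := by
  set fr := (FiniteField.frobeniusAlgHom F Ω).toRingHom
  have hd : (z.denom.map fr).eval s ≠ 0 := by
    rw [eval_map_frob _ hs]; exact pow_ne_zero _ hz
  have e : coeffFrob (F := F) Ω z =
      algebraMap (Polynomial Ω) _ (z.num.map fr) / algebraMap (Polynomial Ω) _ (z.denom.map fr) := by
    conv_lhs => rw [← z.num_div_denom]
    exact coeffFrob_div Ω _ _
  refine ⟨e ▸ div_mem_placeAt s hd, ?_⟩
  rw [show (⟨coeffFrob (F := F) Ω z, e ▸ div_mem_placeAt s hd⟩ : placeAt s) =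
    ⟨_, div_mem_placeAt s (p := z.num.map fr) hd⟩ from Subtype.ext e, evalAt_div s hd,
    eval_map_frob _ hs, eval_map_frob _ hs, ← div_pow]
  rfl

open Classical in
/-- Specialisation at `s`: the characteristic equation of the special fibre kills `n`-torsion. -/
lemma specialise (E : WeierstrassCurve.Affine (RatFunc Ω)) [Algebra.IsAlgebraic F Ω]
    (hfix : WeierstrassCurve.map E (coeffFrob (F := F) Ω) = E) (E₀ : WeierstrassCurve F)
    (hΔ₀ : E₀.Δ ≠ 0) {s : Ω} (hs : s ^ q = s) (hE : Local.IntCoeffs (placeAt s) E)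
    (hE₀ : (Local.intModel hE).map (evalAt s) = E₀.map (algebraMap F Ω)) {n : ℕ} (h5 : (n : Ω) ≠ 0)
    {P : E.Point} (hP : n • P = 0) :
    Local.conjPoint E (coeffFrob (F := F) Ω) hfix (Local.conjPoint E (coeffFrob (F := F) Ω) hfix P)
      - E₀.traceOfFrobenius • Local.conjPoint E (coeffFrob (F := F) Ω) hfix P + (q : ℤ) • P = 0 := by
  have hgood : Hasse.GoodPlace (placeAt s) E (evalAt s) :=
    { intCoeffs := hE
      val_lt_one_iff := fun z => valuation_lt_one_iff_evalAt s z
      disc := by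
        have hD : (((Local.intModel hE).Δ : placeAt s) : RatFunc Ω) = WeierstrassCurve.Δ E :=
          ((Local.intModel hE).map_Δ (placeAt s).subtype).symm
        rw [← hD]
        refine le_antisymm ((placeAt s).valuation_le_one _) (not_lt.1 fun hlt => ?_)
        rw [valuation_lt_one_iff_evalAt, ← WeierstrassCurve.map_Δ, hE₀, WeierstrassCurve.map_Δ,
          _root_.map_eq_zero] at hlt
        exact hΔ₀ hlt }
  set ρ : E.Point →+ (E₀.toAffine⁄Ω).Point :=
    (Hasse.castPoint (show hgood.redCurve = (E₀.toAffine⁄Ω) from hE₀)).comp hgood.redHom with hρ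
  set Φ := Local.conjPoint E (coeffFrob (F := F) Ω) hfix with hΦ
  have h1 : ∀ Q : E.Point, n • Q = 0 → ρ (Φ Q) = Hasse.frobMap E₀ Ω (ρ Q) := by
    rintro (_ | ⟨x, y, h⟩) hQ
    · show ρ (Φ 0) = Hasse.frobMap E₀ Ω (ρ 0)
      rw [map_zero, map_zero, map_zero]
    have hv5 : (placeAt s).valuation (n : RatFunc Ω) = 1 := by
      refine le_antisymm (Local.val_le_one_of_mem (natCast_mem _ n)) (not_lt.1 fun hlt => h5 ?_)
      have := (valuation_lt_one_iff_evalAt s ((n : placeAt s))).1 (by
        rwa [SubringClass.coe_natCast (R := RatFunc Ω)])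
      rw [map_natCast] at this
      exact this
    have hx := Local.x_mem_of_nsmul_eq_zero hE hv5 h hQ
    have hy := Local.y_mem_of_x_mem hE h.1 hx
    obtain ⟨hx', ex⟩ := coeffFrob_mem (F := F) hs hx
    obtain ⟨hy', ey⟩ := coeffFrob_mem (F := F) hs hy
    rw [hΦ, Local.conjPoint_some, hρ, AddMonoidHom.comp_apply, AddMonoidHom.comp_apply,
      Hasse.GoodPlace.redHom_apply, Hasse.GoodPlace.redHom_apply, hgood.red_some _ hx,
      hgood.red_some _ hx', Hasse.castPoint_some, Hasse.castPoint_some, Hasse.frobMap,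
      Affine.Point.map_some, Affine.Point.some.injEq]
    exact ⟨ex, ey⟩
  have h5' : ∀ Q : E.Point, n • Q = 0 → n • Φ Q = 0 := fun Q hQ => by
    rw [← map_nsmul, hQ, map_zero]
  refine hgood.eq_zero_of_red_eq_zero (n := n) (by simpa using h5) ?_ ?_
  · simp only [nsmul_add, nsmul_sub, smul_comm n E₀.traceOfFrobenius,
      smul_comm n (q : ℤ), h5' _ (h5' _ hP), h5' _ hP, hP]
    rw [zsmul_zero E₀.traceOfFrobenius, zsmul_zero (q : ℤ), sub_zero, add_zero]
  · rw [← Hasse.castPoint_eq_zero_iff (show hgood.redCurve = (E₀.toAffine⁄Ω) from hE₀)]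
    show ρ _ = 0
    rw [map_add, map_sub, map_zsmul, map_zsmul, h1 _ (h5' _ hP), h1 _ hP]
    exact Hasse.frobenius_char_eq hΔ₀ (ρ P)

/-- **Congruence**: the curves at the parameters `(1, 0)` and `(l, m)` have traces congruent
mod 5. -/
theorem trace_congr (h330 : (330 : F) ≠ 0) {a b d l m C₄ C₆ : F}
    (habd : a ^ 3 - b ^ 2 = 1728 * d) (hd : d ≠ 0)
    (hC₄ : -17424 * C₄ = covHess a b d l m) (hC₆ : -4181760 * C₆ = covJac a b d l m)
    (hC : C₄ ^ 3 - C₆ ^ 2 ≠ 0) :
    (5 : ℤ) ∣ (c46Curve C₄ C₆).traceOfFrobenius - (c46Curve a b).traceOfFrobenius := by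
  classical
  set Ω := AlgebraicClosure F
  set j := algebraMap F Ω
  have hj : Function.Injective j := j.injective
  have h30 : (30 : Ω) ≠ 0 := by
    rw [← map_ofNat j 30, ne_eq, _root_.map_eq_zero]
    exact fun e => h330 (by linear_combination (11 : F) * e)
  have h2F : (2 : F) ≠ 0 := fun e => h330 (by linear_combination (165 : F) * e)
  have h3F : (3 : F) ≠ 0 := fun e => h330 (by linear_combination (110 : F) * e)
  have h5F : (5 : F) ≠ 0 := fun e => h330 (by linear_combination (66 : F) * e)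
  have h11F : (11 : F) ≠ 0 := fun e => h330 (by linear_combination (30 : F) * e)
  have h1728 : (1728 : F) ≠ 0 := by
    rw [show (1728 : F) = 2 ^ 6 * 3 ^ 3 by norm_num]
    exact mul_ne_zero (pow_ne_zero _ h2F) (pow_ne_zero _ h3F)
  have hK₄ : (-17424 : F) ≠ 0 := by
    rw [show (-17424 : F) = -(2 ^ 4 * 3 ^ 2 * 11 ^ 2) by norm_num, neg_ne_zero]
    exact mul_ne_zero (mul_ne_zero (pow_ne_zero _ h2F) (pow_ne_zero _ h3F)) (pow_ne_zero _ h11F)
  have hK₆ : (-4181760 : F) ≠ 0 := by
    rw [show (-4181760 : F) = -(2 ^ 8 * 3 ^ 3 * 5 * 11 ^ 2) by norm_num, neg_ne_zero]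
    exact mul_ne_zero (mul_ne_zero (mul_ne_zero (pow_ne_zero _ h2F) (pow_ne_zero _ h3F)) h5F)
      (pow_ne_zero _ h11F)
  obtain ⟨u, v, hH, hT, hF5, hf⟩ := exists_base (a := j a) (b := j b) (d := j d) h30
    (by simpa [map_ofNat] using congrArg j habd) ((_root_.map_ne_zero j).2 hd)
  -- the line
  set L : (Polynomial Ω) := 1 + X * C (j l - 1)
  set M : (Polynomial Ω) := X * C (j m)
  set u' : (Polynomial Ω) := lineU (C u) (C v) L M
  set v' : (Polynomial Ω) := lineV (C u) (C v) L M
  set ι := algebraMap (Polynomial Ω) (RatFunc Ω)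
  have hι : Function.Injective ι := RatFunc.algebraMap_injective Ω
  set c : Ω →+* RatFunc Ω := ι.comp C
  have hfc : kleinF (c u) (c v) ≠ 0 := by
    rw [← map_kleinF c]; exact (_root_.map_ne_zero c).2 hf
  have hHl : -17424 * kleinH (ι u') (ι v') =
      covHess (c (j a)) (c (j b)) (c (j d)) (ι L) (ι M) := by
    rw [map_lineU, map_lineV, show ι (C u) = c u from rfl, show ι (C v) = c v from rfl,
      ← covHess_eq _ _ _ _ hfc]
    simp only [← hH, ← hT, ← hF5, map_kleinH, map_kleinT, map_pow, map_kleinF]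
  have hTl : -4181760 * kleinT (ι u') (ι v') =
      covJac (c (j a)) (c (j b)) (c (j d)) (ι L) (ι M) := by
    rw [map_lineU, map_lineV, show ι (C u) = c u from rfl, show ι (C v) = c v from rfl,
      ← covJac_eq _ _ _ _ hfc]
    simp only [← hH, ← hT, ← hF5, map_kleinH, map_kleinT, map_pow, map_kleinF]
  set E : WeierstrassCurve.Affine (RatFunc Ω) :=
    (c46Curve (kleinH (ι u') (ι v')) (kleinT (ι u') (ι v'))).toAffine with hE
  set Φ := coeffFrob (F := F) Ω
  have hΦc : ∀ x : F, Φ (c (j x)) = c (j x) := fun x => by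
    show coeffFrob (F := F) Ω (ι (C (j x))) = _
    rw [coeffFrob_algebraMap, Polynomial.map_C]
    show ι (C (FiniteField.frobeniusAlgHom F Ω (j x))) = _
    rw [AlgHom.commutes]
    rfl
  have hΦX : Φ (ι X) = ι X := by rw [coeffFrob_algebraMap, Polynomial.map_X]
  have hL : ι L = 1 + ι X * (c (j l) - 1) := by simp [L, c]
  have hM : ι M = ι X * c (j m) := by simp [M, c]; ring
  have hΦL : Φ (ι L) = ι L := by rw [hL, map_add, map_mul, map_sub, map_one, hΦX, hΦc]
  have hΦM : Φ (ι M) = ι M := by rw [hM, map_mul, hΦX, hΦc]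
  have hcast : ∀ n : F, (c (j n)) = (algebraMap F (RatFunc Ω) n) := fun n => by
    rw [IsScalarTower.algebraMap_apply F Ω (RatFunc Ω)]; rfl
  have hk₄ : ((-17424 : RatFunc Ω)) ≠ 0 := by
    have := (_root_.map_ne_zero (c.comp j)).2 hK₄
    simpa [map_ofNat] using this
  have hk₆ : ((-4181760 : RatFunc Ω)) ≠ 0 := by
    have := (_root_.map_ne_zero (c.comp j)).2 hK₆
    simpa [map_ofNat] using this
  have hfix : WeierstrassCurve.map E Φ = E := by
    show (c46Curve _ _).map Φ = c46Curve _ _
    rw [c46Curve_map]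
    congr 1
    · refine mul_left_cancel₀ hk₄ ?_
      have h := congrArg Φ hHl
      rw [map_covHess, hΦc, hΦc, hΦc, hΦL, hΦM, ← hHl, map_mul, map_neg, map_ofNat] at h
      exact h
    · refine mul_left_cancel₀ hk₆ ?_
      have h := congrArg Φ hTl
      rw [map_covJac, hΦc, hΦc, hΦc, hΦL, hΦM, ← hTl, map_mul, map_neg, map_ofNat] at h
      exact h
  have hint : ∀ s : Ω, Local.IntCoeffs (placeAt s) E := fun s => by
    have hp : ∀ p : (Polynomial Ω), ι p ∈ placeAt s := algebraMap_mem_placeAt s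
    constructor
    · exact zero_mem _
    · exact zero_mem _
    · exact zero_mem _
    · show (-27 : RatFunc Ω) * kleinH (ι u') (ι v') ∈ _
      rw [← map_kleinH ι, ← map_ofNat ι 27, ← map_neg ι, ← map_mul ι]
      exact hp _
    · show (-54 : RatFunc Ω) * kleinT (ι u') (ι v') ∈ _
      rw [← map_kleinT ι, ← map_ofNat ι 54, ← map_neg ι, ← map_mul ι]
      exact hp _
  have hred : ∀ (s : Ω) (x y : F), kleinH (u'.eval s) (v'.eval s) = j x →
      kleinT (u'.eval s) (v'.eval s) = j y →
      (Local.intModel (hint s)).map (evalAt s) = (c46Curve x y).map j := by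
    intro s x y hx hy
    have he : ∀ (z : RatFunc Ω) (hz : z ∈ placeAt s) (p : (Polynomial Ω)), z = ι p →
        evalAt s ⟨z, hz⟩ = p.eval s := by
      rintro _ hz p rfl; exact evalAt_algebraMap s p
    rw [c46Curve_map]
    ext
    · exact (he 0 _ 0 (map_zero ι).symm).trans eval_zero
    · exact (he 0 _ 0 (map_zero ι).symm).trans eval_zero
    · exact (he 0 _ 0 (map_zero ι).symm).trans eval_zero
    · refine (he _ _ (-27 * kleinH u' v') ?_).trans ?_
      · show (-27 : RatFunc Ω) * kleinH (ι u') (ι v') = _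
        simp [map_kleinH, map_ofNat]
      · show _ = -27 * j x
        rw [← hx, ← coe_evalRingHom, map_mul, map_kleinH, map_neg, map_ofNat]
    · refine (he _ _ (-54 * kleinT u' v') ?_).trans ?_
      · show (-54 : RatFunc Ω) * kleinT (ι u') (ι v') = _
        simp [map_kleinT, map_ofNat]
      · show _ = -54 * j y
        rw [← hy, ← coe_evalRingHom, map_mul, map_kleinT, map_neg, map_ofNat]
  have heU : ∀ s : Ω, u'.eval s = lineU u v (1 + s * (j l - 1)) (s * j m) := fun s => by
    rw [← coe_evalRingHom, map_lineU]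
    simp only [L, M, coe_evalRingHom, eval_add, eval_one, eval_mul, eval_X, eval_C]
  have heV : ∀ s : Ω, v'.eval s = lineV u v (1 + s * (j l - 1)) (s * j m) := fun s => by
    rw [← coe_evalRingHom, map_lineV]
    simp only [L, M, coe_evalRingHom, eval_add, eval_one, eval_mul, eval_X, eval_C]
  have hΔa : (c46Curve a b).Δ ≠ 0 := by
    rw [c46Curve_Δ, habd]
    refine mul_ne_zero ?_ (mul_ne_zero h1728 hd)
    rw [show (6 : F) ^ 6 * 27 = 2 ^ 6 * 3 ^ 9 by norm_num]
    exact mul_ne_zero (pow_ne_zero _ h2F) (pow_ne_zero _ h3F)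
  have hΔC : (c46Curve C₄ C₆).Δ ≠ 0 := by
    rw [c46Curve_Δ]
    refine mul_ne_zero ?_ hC
    rw [show (6 : F) ^ 6 * 27 = 2 ^ 6 * 3 ^ 9 by norm_num]
    exact mul_ne_zero (pow_ne_zero _ h2F) (pow_ne_zero _ h3F)
  have hred0 : (Local.intModel (hint 0)).map (evalAt 0) = (c46Curve a b).map j :=
    hred 0 a b (by rw [heU, heV]; simp [lineU, lineV, hH]) (by rw [heU, heV]; simp [lineU, lineV, hT])
  have hred1 : (Local.intModel (hint 1)).map (evalAt 1) = (c46Curve C₄ C₆).map j := by
    refine hred 1 C₄ C₆ ?_ ?_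
    · rw [heU, heV, show (1 : Ω) + 1 * (j l - 1) = j l by ring, one_mul]
      refine mul_left_cancel₀ (show (-17424 : Ω) ≠ 0 by
        have := (_root_.map_ne_zero j).2 hK₄; simpa [map_ofNat] using this) ?_
      rw [← covHess_eq _ _ _ _ hf, hH, hT, hF5, ← map_covHess, ← hC₄]
      simp [map_ofNat]; ring
    · rw [heU, heV, show (1 : Ω) + 1 * (j l - 1) = j l by ring, one_mul]
      refine mul_left_cancel₀ (show (-4181760 : Ω) ≠ 0 by
        have := (_root_.map_ne_zero j).2 hK₆; simpa [map_ofNat] using this) ?_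
      rw [← covJac_eq _ _ _ _ hf, hH, hT, hF5, ← map_covJac, ← hC₆]
      simp [map_ofNat]; ring
  have hΔE : WeierstrassCurve.Δ E ≠ 0 := by
    intro e
    have hD : (((Local.intModel (hint 0)).Δ : placeAt (0 : Ω)) : RatFunc Ω) = WeierstrassCurve.Δ E :=
      ((Local.intModel (hint 0)).map_Δ (placeAt (0 : Ω)).subtype).symm
    rw [e, ← ZeroMemClass.coe_zero (placeAt (0 : Ω))] at hD
    have h' := congrArg (evalAt (0 : Ω)) (Subtype.ext hD :
      (Local.intModel (hint 0)).Δ = 0)
    rw [← WeierstrassCurve.map_Δ, hred0, WeierstrassCurve.map_Δ, map_zero, _root_.map_eq_zero] at h'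
    exact hΔa h'
  have h2K : (2 : RatFunc Ω) ≠ 0 := by
    have := (_root_.map_ne_zero (c.comp j)).2 h2F
    simpa [map_ofNat] using this
  have h5Ω : (5 : Ω) ≠ 0 := by
    have := (_root_.map_ne_zero j).2 h5F
    simpa [map_ofNat] using this
  have hR5 := five_nsmul_pt h2K hΔE
  set R : E.Point := .some (ptX (ι u') (ι v')) (ptY (ι u') (ι v'))
    ((Affine.equation_iff_nonsingular_of_Δ_ne_zero hΔE).1 (equation_pt _ _))
  have hq0 : (0 : Ω) ^ q = 0 := zero_pow Fintype.card_ne_zero
  have e0 := specialise E hfix _ hΔa hq0 (hint 0) hred0 (n := 5) (by exact_mod_cast h5Ω) hR5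
  have e1 := specialise E hfix _ hΔC (one_pow q) (hint 1) hred1 (n := 5) (by exact_mod_cast h5Ω) hR5
  set S := Local.conjPoint E Φ hfix R with hS
  have hS5 : (5 : ℤ) • S = 0 := by
    rw [show ((5 : ℤ) • S) = 5 • S from natCast_zsmul S 5, hS, ← map_nsmul, hR5, map_zero]
  have hsub : ((c46Curve C₄ C₆).traceOfFrobenius - (c46Curve a b).traceOfFrobenius) • S = 0 := by
    rw [sub_zsmul]
    calc (c46Curve C₄ C₆).traceOfFrobenius • S - (c46Curve a b).traceOfFrobenius • S
        = (Local.conjPoint E Φ hfix S - (c46Curve a b).traceOfFrobenius • S + (q : ℤ) • R)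
          - (Local.conjPoint E Φ hfix S - (c46Curve C₄ C₆).traceOfFrobenius • S + (q : ℤ) • R) := by
          abel
      _ = 0 := by rw [e0, e1, sub_zero]
  by_contra hdvd
  obtain ⟨x, y, hxy⟩ := (Prime.coprime_iff_not_dvd (Nat.prime_iff_prime_int.1 Nat.prime_five)).2 hdvd
  have : S = 0 := by
    have h := congrArg (fun z : ℤ => z • S) hxy
    simp only [add_zsmul, mul_zsmul, one_zsmul] at h
    rw [show ((5 : ℕ) : ℤ) = (5 : ℤ) from rfl, hS5, hsub, zsmul_zero x, zsmul_zero y, add_zero] at h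
    exact h.symm
  exact Affine.Point.some_ne_zero _ this

end FermatAgent.Switch
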