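import Fermat.Agent.Switch.Covariants.First
import Fermat.Agent.Switch.Covariants.Second
import Fermat.Agent.Switch.Covariants.SecondMixed
import Fermat.Agent.Switch.Covariants.Third
import Fermat.Agent.Switch.Covariants.ThirdMixed

/-!
# Syzygies of Klein's forms and of their covariants along a line
-/

set_option autoImplicit false

namespace FermatAgent.Switch

section Ring

variable {R : Type*} [CommRing R] (u v l m : R)

theorem klein_syzygy :
    kleinH u v ^ 3 - kleinT u v ^ 2 = 1728 * kleinF u v ^ 5 := by
  simp only [kleinH, kleinT, kleinF]; ring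

theorem klein_euler : u * kleinFu u v + v * kleinFv u v = 12 * kleinF u v := by
  simp only [kleinF, kleinFu, kleinFv]; ring

theorem klein_hess :
    kleinFuu u v * kleinFvv u v - kleinFuv u v ^ 2 = -121 * kleinH u v := by
  simp only [kleinH, kleinFuu, kleinFuv, kleinFvv]; ring

theorem klein_jac :
    kleinFu u v * (kleinFuuv u v * kleinFvv u v + kleinFuu u v * kleinFvvv u v
        - 2 * kleinFuv u v * kleinFuvv u v)
      - kleinFv u v * (kleinFuuu u v * kleinFvv u v + kleinFuu u v * kleinFuvv u v
        - 2 * kleinFuv u v * kleinFuuv u v) = 2420 * kleinT u v := by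
  simp only [kleinT, kleinFu, kleinFv, kleinFuu, kleinFuv, kleinFvv, kleinFuuu, kleinFuuv,
    kleinFuvv, kleinFvvv]; ring

end Ring

/-- The Hessian determinant of a binary form transforms with the square of the determinant. -/
private theorem hess_transform {R : Type*} [CommRing R] (u v r s a b c : R) :
    (u * u * a + u * v * b + v * u * b + v * v * c) * (r * r * a + r * s * b + s * r * b + s * s * c)
      - (u * r * a + u * s * b + v * r * b + v * s * c) ^ 2 = (u * s - v * r) ^ 2 * (a * c - b ^ 2) := by
  ring

section Field

variable {K : Type*} [Field K] (u v l m : K)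

local notation "cf" D:max => (D (kleinH u v) (kleinT u v) (kleinF u v ^ 5) l m)

theorem covHess_eq (hf : kleinF u v ≠ 0) :
    cf covHess = -17424 * kleinH (lineU u v l m) (lineV u v l m) := by
  have he := klein_euler u v
  have hh := klein_hess (lineU u v l m) (lineV u v l m)
  have h1 := kleinF_line_ll u v l m
  have h2 := kleinF_line_lm u v l m
  have h3 := kleinF_line_mm u v l m
  refine mul_left_cancel₀ (pow_ne_zero 2 hf) ?_
  unfold covHess
  generalize kleinFuu (lineU u v l m) (lineV u v l m) = a at *
  generalize kleinFuv (lineU u v l m) (lineV u v l m) = b at *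
  generalize kleinFvv (lineU u v l m) (lineV u v l m) = c at *
  generalize kleinH (lineU u v l m) (lineV u v l m) = H at *
  generalize cf covDll = dll at *
  generalize cf covDlm = dlm at *
  generalize cf covDmm = dmm at *
  generalize kleinFu u v = p at *
  generalize kleinFv u v = q at *
  generalize kleinF u v = f at *
  linear_combination hess_transform u v q (-p) a b c
    - (q * q * a + q * (-p) * b + (-p) * q * b + (-p) * (-p) * c) * h1 - f * dll * h3
    + ((u * q * a + u * (-p) * b + v * q * b + v * (-p) * c) + f * dlm) * h2
    + (u * p + v * q) ^ 2 * hh - 121 * H * (u * p + v * q + 12 * f) * he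

theorem covJac_eq (hf : kleinF u v ≠ 0) :
    cf covJac = -4181760 * kleinT (lineU u v l m) (lineV u v l m) := by
  have he := klein_euler u v
  have hj := klein_jac (lineU u v l m) (lineV u v l m)
  have h1 := kleinF_line_l u v l m
  have h2 := kleinF_line_m u v l m
  have h3 := kleinF_line_ll u v l m
  have h4 := kleinF_line_lm u v l m
  have h5 := kleinF_line_mm u v l m
  have h6 := kleinF_line_lll u v l m
  have h7 := kleinF_line_llm u v l m
  have h8 := kleinF_line_lmm u v l m
  have h9 := kleinF_line_mmm u v l m
  refine mul_left_cancel₀ (pow_ne_zero 3 hf) ?_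
  unfold covJac
  generalize kleinFu (lineU u v l m) (lineV u v l m) = a1 at *
  generalize kleinFv (lineU u v l m) (lineV u v l m) = a2 at *
  generalize kleinFuu (lineU u v l m) (lineV u v l m) = b1 at *
  generalize kleinFuv (lineU u v l m) (lineV u v l m) = b2 at *
  generalize kleinFvv (lineU u v l m) (lineV u v l m) = b3 at *
  generalize kleinFuuu (lineU u v l m) (lineV u v l m) = c1 at *
  generalize kleinFuuv (lineU u v l m) (lineV u v l m) = c2 at *
  generalize kleinFuvv (lineU u v l m) (lineV u v l m) = c3 at *
  generalize kleinFvvv (lineU u v l m) (lineV u v l m) = c4 at *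
  generalize kleinT (lineU u v l m) (lineV u v l m) = T at *
  generalize cf covDl = dl at *
  generalize cf covDm = dm at *
  generalize cf covDll = dll at *
  generalize cf covDlm = dlm at *
  generalize cf covDmm = dmm at *
  generalize cf covDlll = dlll at *
  generalize cf covDllm = dllm at *
  generalize cf covDlmm = dlmm at *
  generalize cf covDmmm = dmmm at *
  generalize kleinFu u v = p at *
  generalize kleinFv u v = q at *
  generalize kleinF u v = f at *
  calc f ^ 3 * (dl * (dllm * dmm + dll * dmmm - 2 * dlm * dlmm)
          - dm * (dlll * dmm + dll * dlmm - 2 * dlm * dllm))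
      = (f * dl) * ((f * dllm) * (f * dmm) + (f * dll) * (f * dmmm) - 2 * (f * dlm) * (f * dlmm))
          - (f * dm) * ((f * dlll) * (f * dmm) + (f * dll) * (f * dlmm)
            - 2 * (f * dlm) * (f * dllm)) := by ring
    _ = -(u * p + v * q) ^ 3 * (a1 * (c2 * b3 + b1 * c4 - 2 * b2 * c3)
          - a2 * (c1 * b3 + b1 * c3 - 2 * b2 * c2)) := by
        rw [← h1, ← h2, ← h3, ← h4, ← h5, ← h6, ← h7, ← h8, ← h9]; ring
    _ = f ^ 3 * (-4181760 * T) := by rw [hj, he]; ring

end Field

end FermatAgent.Switch
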