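import Fermat.Agent.Switch.Base

/-!
# The universal point of order 5 as a point on `y² = x³ - 27 H x - 54 T`
-/

set_option autoImplicit false

namespace FermatAgent.Switch

open WeierstrassCurve

variable {K : Type*} [Field K]

/-- `y² = x³ - 27 a x - 54 b`. -/
def c46Curve {R : Type*} [CommRing R] (a b : R) : WeierstrassCurve R :=
  ⟨0, 0, 0, -27 * a, -54 * b⟩

lemma c46Curve_map {R S : Type*} [CommRing R] [CommRing S] (g : R →+* S) (a b : R) :
    (c46Curve a b).map g = c46Curve (g a) (g b) := by
  ext <;> simp [c46Curve, map_ofNat]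

lemma c46Curve_Δ {R : Type*} [CommRing R] (a b : R) :
    (c46Curve a b).Δ = 6 ^ 6 * 27 * (a ^ 3 - b ^ 2) := by
  simp only [c46Curve, WeierstrassCurve.Δ, WeierstrassCurve.b₂, WeierstrassCurve.b₄,
    WeierstrassCurve.b₆, WeierstrassCurve.b₈]
  ring

lemma equation_pt (u v : K) :
    (c46Curve (kleinH u v) (kleinT u v)).toAffine.Equation (ptX u v) (ptY u v) := by
  rw [Affine.equation_iff]
  simp only [WeierstrassCurve.toAffine, c46Curve]
  linear_combination pt_on_curve u v

lemma equation_pt₂ (u v : K) :
    (c46Curve (kleinH u v) (kleinT u v)).toAffine.Equation (ptX₂ u v) (ptY₂ u v) := by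
  rw [Affine.equation_iff]
  simp only [WeierstrassCurve.toAffine, c46Curve]
  linear_combination pt₂_on_curve u v

lemma doubling_aux [DecidableEq K] (h2 : (2 : K) ≠ 0) {A B : K}
    (_hΔ : (c46Curve A B).Δ ≠ 0) {x y x' y' : K}
    (h : (c46Curve A B).toAffine.Nonsingular x y) (h' : (c46Curve A B).toAffine.Nonsingular x' y')
    (hx : (3 * x ^ 2 - 27 * A) ^ 2 = (2 * y) ^ 2 * (x' + 2 * x))
    (hy : (3 * x ^ 2 - 27 * A) * (x - x') = 2 * y * (y' + y)) :
    Affine.Point.some x y h + .some x y h = .some x' y' h' := by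
  have hy0 : y ≠ 0 := by
    rintro rfl
    simp at hx
    rw [Affine.nonsingular_iff] at h
    simp [c46Curve, WeierstrassCurve.toAffine] at h
    exact h.2 (by linear_combination -hx)
  have hne : y ≠ (c46Curve A B).toAffine.negY x y := by
    simp only [Affine.negY, WeierstrassCurve.toAffine, c46Curve]
    intro e
    exact hy0 (by simpa [h2] using (show (2 : K) * y = 0 by linear_combination e))
  have hl : (c46Curve A B).toAffine.slope x x y y * (2 * y) = 3 * x ^ 2 - 27 * A := by
    rw [Affine.slope_of_Y_ne rfl hne]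
    simp only [Affine.negY, WeierstrassCurve.toAffine, c46Curve]
    rw [div_mul_eq_mul_div, div_eq_iff (by
      rw [show y - (-y - 0 * x - 0) = 2 * y by ring]; exact mul_ne_zero h2 hy0)]
    ring
  rw [Affine.Point.add_self_of_Y_ne hne, Affine.Point.some.injEq]
  set l := (c46Curve A B).toAffine.slope x x y y
  have hX : l ^ 2 - x - x = x' := by
    refine mul_right_cancel₀ (pow_ne_zero 2 (mul_ne_zero h2 hy0)) ?_
    linear_combination (l * (2 * y) + (3 * x ^ 2 - 27 * A)) * hl + hx
  constructor
  · simp only [Affine.addX, WeierstrassCurve.toAffine, c46Curve]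
    linear_combination hX
  · simp only [Affine.addY, Affine.negAddY, Affine.addX, Affine.negY, WeierstrassCurve.toAffine,
      c46Curve]
    refine mul_right_cancel₀ (mul_ne_zero h2 hy0) ?_
    linear_combination (-(l * (2 * y))) * hX + (x - x') * hl + hy

/-- The universal point has order 5. -/
theorem five_nsmul_pt [DecidableEq K] (h2 : (2 : K) ≠ 0) {u v : K}
    (hΔ : (c46Curve (kleinH u v) (kleinT u v)).Δ ≠ 0) :
    5 • Affine.Point.some (ptX u v) (ptY u v)
      ((Affine.equation_iff_nonsingular_of_Δ_ne_zero hΔ).1 (equation_pt u v)) = 0 := by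
  have hn := (Affine.equation_iff_nonsingular_of_Δ_ne_zero hΔ).1 (equation_pt u v)
  have hn₂ := (Affine.equation_iff_nonsingular_of_Δ_ne_zero hΔ).1 (equation_pt₂ u v)
  set P := Affine.Point.some (ptX u v) (ptY u v) hn
  set Q := Affine.Point.some (ptX₂ u v) (ptY₂ u v) hn₂
  have e1 : P + P = Q := doubling_aux h2 hΔ hn hn₂ (pt_double_x u v) (pt_double_y u v)
  have e2 : Q + Q = -P := by
    have hneg := (Affine.nonsingular_neg _ _).2 hn
    simp only [P, Affine.Point.neg_some]
    refine doubling_aux h2 hΔ hn₂ hneg (pt₂_double_x u v) ?_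
    simp only [Affine.negY, c46Curve]
    linear_combination pt₂_double_y u v
  calc 5 • P = (P + P) + (P + P) + P := by abel
    _ = 0 := by rw [e1, e2, neg_add_cancel]

end FermatAgent.Switch
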