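import Mathlib

/-!
# Klein's icosahedral forms and the Rubin-Silverberg covariants

Klein's icosahedral forms `f` (degree 12), `H` (degree 20), `T` (degree 30), a universal point of
order 5 `(ptX, ptY)` on `y² = x³ - 27 H x - 54 T` with its double `(ptX₂, ptY₂)`, and the
Rubin-Silverberg covariants `covD`, `covHess`, `covJac`: the restriction of `f`, `H`, `T` to the
line through `w = (u, v)` in the direction `(∂f/∂v, -∂f/∂u)`, written in `H`, `T`, `f ^ 5`.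
-/

set_option autoImplicit false
set_option maxRecDepth 4000

namespace FermatAgent.Switch

variable {R : Type*} [CommRing R]

/-- See the module docstring. -/
def kleinF (u v : R) : R :=
  -u ^ 11 * v - 11 * u ^ 6 * v ^ 6 + u * v ^ 11

/-- See the module docstring. -/
def kleinFu (u v : R) : R :=
  -11 * u ^ 10 * v - 66 * u ^ 5 * v ^ 6 + v ^ 11

/-- See the module docstring. -/
def kleinFv (u v : R) : R :=
  -u ^ 11 - 66 * u ^ 6 * v ^ 5 + 11 * u * v ^ 10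

/-- See the module docstring. -/
def kleinFuu (u v : R) : R :=
  -110 * u ^ 9 * v - 330 * u ^ 4 * v ^ 6

/-- See the module docstring. -/
def kleinFuv (u v : R) : R :=
  -11 * u ^ 10 - 396 * u ^ 5 * v ^ 5 + 11 * v ^ 10

/-- See the module docstring. -/
def kleinFvv (u v : R) : R :=
  -330 * u ^ 6 * v ^ 4 + 110 * u * v ^ 9

/-- See the module docstring. -/
def kleinFuuu (u v : R) : R :=
  -990 * u ^ 8 * v - 1320 * u ^ 3 * v ^ 6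

/-- See the module docstring. -/
def kleinFuuv (u v : R) : R :=
  -110 * u ^ 9 - 1980 * u ^ 4 * v ^ 5

/-- See the module docstring. -/
def kleinFuvv (u v : R) : R :=
  -1980 * u ^ 5 * v ^ 4 + 110 * v ^ 9

/-- See the module docstring. -/
def kleinFvvv (u v : R) : R :=
  -1320 * u ^ 6 * v ^ 3 + 990 * u * v ^ 8

/-- See the module docstring. -/
def kleinH (u v : R) : R :=
  u ^ 20 - 228 * u ^ 15 * v ^ 5 + 494 * u ^ 10 * v ^ 10 + 228 * u ^ 5 * v ^ 15 + v ^ 20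

/-- See the module docstring. -/
def kleinT (u v : R) : R :=
  -u ^ 30 - 522 * u ^ 25 * v ^ 5 + 10005 * u ^ 20 * v ^ 10 + 10005 * u ^ 10 * v ^ 20 + 522 * u ^ 5 * v ^ 25 - v ^ 30

/-- See the module docstring. -/
def ptX (u v : R) : R :=
  3 * u ^ 10 - 36 * u ^ 9 * v + 72 * u ^ 8 * v ^ 2 - 108 * u ^ 7 * v ^ 3 + 180 * u ^ 6 * v ^ 4 - 90 * u ^ 5 * v ^ 5 + 72 * u ^ 4 * v ^ 6 + 36 * u ^ 3 * v ^ 7 + 36 * u ^ 2 * v ^ 8 + 3 * v ^ 10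

/-- See the module docstring. -/
def ptY (u v : R) : R :=
  108 * u ^ 14 * v - 432 * u ^ 13 * v ^ 2 + 972 * u ^ 12 * v ^ 3 - 1620 * u ^ 11 * v ^ 4 + 2700 * u ^ 10 * v ^ 5 - 3132 * u ^ 9 * v ^ 6 + 2268 * u ^ 8 * v ^ 7 - 648 * u ^ 7 * v ^ 8 + 540 * u ^ 6 * v ^ 9 + 432 * u ^ 4 * v ^ 11 - 108 * u ^ 3 * v ^ 12 + 108 * u ^ 2 * v ^ 13

/-- See the module docstring. -/
def ptX₂ (u v : R) : R :=
  3 * u ^ 10 + 36 * u ^ 8 * v ^ 2 - 36 * u ^ 7 * v ^ 3 + 72 * u ^ 6 * v ^ 4 + 90 * u ^ 5 * v ^ 5 + 180 * u ^ 4 * v ^ 6 + 108 * u ^ 3 * v ^ 7 + 72 * u ^ 2 * v ^ 8 + 36 * u * v ^ 9 + 3 * v ^ 10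

/-- See the module docstring. -/
def ptY₂ (u v : R) : R :=
  -108 * u ^ 13 * v ^ 2 - 108 * u ^ 12 * v ^ 3 - 432 * u ^ 11 * v ^ 4 - 540 * u ^ 9 * v ^ 6 - 648 * u ^ 8 * v ^ 7 - 2268 * u ^ 7 * v ^ 8 - 3132 * u ^ 6 * v ^ 9 - 2700 * u ^ 5 * v ^ 10 - 1620 * u ^ 4 * v ^ 11 - 972 * u ^ 3 * v ^ 12 - 432 * u ^ 2 * v ^ 13 - 108 * u * v ^ 14

/-- See the module docstring. -/
def covD (a b d l m : R) : R :=
  (l ^ 12 - 66 * a * l ^ 10 * m ^ 2 - 440 * b * l ^ 9 * m ^ 3 - 1485 * a ^ 2 * l ^ 8 * m ^ 4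
      - 3168 * a * b * l ^ 7 * m ^ 5 - 4620 * a ^ 3 * l ^ 6 * m ^ 6
      + 18247680 * d * l ^ 6 * m ^ 6 - 4752 * a ^ 2 * b * l ^ 5 * m ^ 7)
  + (-3465 * a ^ 4 * l ^ 4 * m ^ 8 - 109486080 * a * d * l ^ 4 * m ^ 8
      - 1760 * a ^ 3 * b * l ^ 3 * m ^ 9 - 243302400 * b * d * l ^ 3 * m ^ 9
      - 594 * a ^ 5 * l ^ 2 * m ^ 10 - 229920768 * a ^ 2 * d * l ^ 2 * m ^ 10
      - 120 * a ^ 4 * b * l * m ^ 11 - 106168320 * a * b * d * l * m ^ 11)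
  + (-11 * a ^ 6 * m ^ 12 - 19464192 * a ^ 3 * d * m ^ 12 + 305764761600 * d ^ 2 * m ^ 12)

/-- See the module docstring. -/
def covDl (a b d l m : R) : R :=
  (12 * l ^ 11 - 660 * a * l ^ 9 * m ^ 2 - 3960 * b * l ^ 8 * m ^ 3
      - 11880 * a ^ 2 * l ^ 7 * m ^ 4 - 22176 * a * b * l ^ 6 * m ^ 5
      - 27720 * a ^ 3 * l ^ 5 * m ^ 6 + 109486080 * d * l ^ 5 * m ^ 6
      - 23760 * a ^ 2 * b * l ^ 4 * m ^ 7)
  + (-13860 * a ^ 4 * l ^ 3 * m ^ 8 - 437944320 * a * d * l ^ 3 * m ^ 8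
      - 5280 * a ^ 3 * b * l ^ 2 * m ^ 9 - 729907200 * b * d * l ^ 2 * m ^ 9
      - 1188 * a ^ 5 * l * m ^ 10 - 459841536 * a ^ 2 * d * l * m ^ 10
      - 120 * a ^ 4 * b * m ^ 11 - 106168320 * a * b * d * m ^ 11)

/-- See the module docstring. -/
def covDm (a b d l m : R) : R :=
  (-132 * a * l ^ 10 * m - 1320 * b * l ^ 9 * m ^ 2 - 5940 * a ^ 2 * l ^ 8 * m ^ 3
      - 15840 * a * b * l ^ 7 * m ^ 4 - 27720 * a ^ 3 * l ^ 6 * m ^ 5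
      + 109486080 * d * l ^ 6 * m ^ 5 - 33264 * a ^ 2 * b * l ^ 5 * m ^ 6
      - 27720 * a ^ 4 * l ^ 4 * m ^ 7)
  + (-875888640 * a * d * l ^ 4 * m ^ 7 - 15840 * a ^ 3 * b * l ^ 3 * m ^ 8
      - 2189721600 * b * d * l ^ 3 * m ^ 8 - 5940 * a ^ 5 * l ^ 2 * m ^ 9
      - 2299207680 * a ^ 2 * d * l ^ 2 * m ^ 9 - 1320 * a ^ 4 * b * l * m ^ 10
      - 1167851520 * a * b * d * l * m ^ 10 - 132 * a ^ 6 * m ^ 11)
  + (-233570304 * a ^ 3 * d * m ^ 11 + 3669177139200 * d ^ 2 * m ^ 11)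

/-- See the module docstring. -/
def covDll (a b d l m : R) : R :=
  (132 * l ^ 10 - 5940 * a * l ^ 8 * m ^ 2 - 31680 * b * l ^ 7 * m ^ 3
      - 83160 * a ^ 2 * l ^ 6 * m ^ 4 - 133056 * a * b * l ^ 5 * m ^ 5
      - 138600 * a ^ 3 * l ^ 4 * m ^ 6 + 547430400 * d * l ^ 4 * m ^ 6
      - 95040 * a ^ 2 * b * l ^ 3 * m ^ 7)
  + (-41580 * a ^ 4 * l ^ 2 * m ^ 8 - 1313832960 * a * d * l ^ 2 * m ^ 8
      - 10560 * a ^ 3 * b * l * m ^ 9 - 1459814400 * b * d * l * m ^ 9 - 1188 * a ^ 5 * m ^ 10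
      - 459841536 * a ^ 2 * d * m ^ 10)

/-- See the module docstring. -/
def covDlm (a b d l m : R) : R :=
  (-1320 * a * l ^ 9 * m - 11880 * b * l ^ 8 * m ^ 2 - 47520 * a ^ 2 * l ^ 7 * m ^ 3
      - 110880 * a * b * l ^ 6 * m ^ 4 - 166320 * a ^ 3 * l ^ 5 * m ^ 5
      + 656916480 * d * l ^ 5 * m ^ 5 - 166320 * a ^ 2 * b * l ^ 4 * m ^ 6
      - 110880 * a ^ 4 * l ^ 3 * m ^ 7)
  + (-3503554560 * a * d * l ^ 3 * m ^ 7 - 47520 * a ^ 3 * b * l ^ 2 * m ^ 8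
      - 6569164800 * b * d * l ^ 2 * m ^ 8 - 11880 * a ^ 5 * l * m ^ 9
      - 4598415360 * a ^ 2 * d * l * m ^ 9 - 1320 * a ^ 4 * b * m ^ 10
      - 1167851520 * a * b * d * m ^ 10)

/-- See the module docstring. -/
def covDmm (a b d l m : R) : R :=
  (-132 * a * l ^ 10 - 2640 * b * l ^ 9 * m - 17820 * a ^ 2 * l ^ 8 * m ^ 2
      - 63360 * a * b * l ^ 7 * m ^ 3 - 138600 * a ^ 3 * l ^ 6 * m ^ 4
      + 547430400 * d * l ^ 6 * m ^ 4 - 199584 * a ^ 2 * b * l ^ 5 * m ^ 5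
      - 194040 * a ^ 4 * l ^ 4 * m ^ 6)
  + (-6131220480 * a * d * l ^ 4 * m ^ 6 - 126720 * a ^ 3 * b * l ^ 3 * m ^ 7
      - 17517772800 * b * d * l ^ 3 * m ^ 7 - 53460 * a ^ 5 * l ^ 2 * m ^ 8
      - 20692869120 * a ^ 2 * d * l ^ 2 * m ^ 8 - 13200 * a ^ 4 * b * l * m ^ 9
      - 11678515200 * a * b * d * l * m ^ 9 - 1452 * a ^ 6 * m ^ 10)
  + (-2569273344 * a ^ 3 * d * m ^ 10 + 40360948531200 * d ^ 2 * m ^ 10)

/-- See the module docstring. -/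
def covDlll (a b d l m : R) : R :=
  (1320 * l ^ 9 - 47520 * a * l ^ 7 * m ^ 2 - 221760 * b * l ^ 6 * m ^ 3
      - 498960 * a ^ 2 * l ^ 5 * m ^ 4 - 665280 * a * b * l ^ 4 * m ^ 5
      - 554400 * a ^ 3 * l ^ 3 * m ^ 6 + 2189721600 * d * l ^ 3 * m ^ 6
      - 285120 * a ^ 2 * b * l ^ 2 * m ^ 7)
  + (-83160 * a ^ 4 * l * m ^ 8 - 2627665920 * a * d * l * m ^ 8 - 10560 * a ^ 3 * b * m ^ 9
      - 1459814400 * b * d * m ^ 9)

/-- See the module docstring. -/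
def covDllm (a b d l m : R) : R :=
  (-11880 * a * l ^ 8 * m - 95040 * b * l ^ 7 * m ^ 2 - 332640 * a ^ 2 * l ^ 6 * m ^ 3
      - 665280 * a * b * l ^ 5 * m ^ 4 - 831600 * a ^ 3 * l ^ 4 * m ^ 5
      + 3284582400 * d * l ^ 4 * m ^ 5 - 665280 * a ^ 2 * b * l ^ 3 * m ^ 6
      - 332640 * a ^ 4 * l ^ 2 * m ^ 7)
  + (-10510663680 * a * d * l ^ 2 * m ^ 7 - 95040 * a ^ 3 * b * l * m ^ 8
      - 13138329600 * b * d * l * m ^ 8 - 11880 * a ^ 5 * m ^ 9 - 4598415360 * a ^ 2 * d * m ^ 9)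

/-- See the module docstring. -/
def covDlmm (a b d l m : R) : R :=
  (-1320 * a * l ^ 9 - 23760 * b * l ^ 8 * m - 142560 * a ^ 2 * l ^ 7 * m ^ 2
      - 443520 * a * b * l ^ 6 * m ^ 3 - 831600 * a ^ 3 * l ^ 5 * m ^ 4
      + 3284582400 * d * l ^ 5 * m ^ 4 - 997920 * a ^ 2 * b * l ^ 4 * m ^ 5
      - 776160 * a ^ 4 * l ^ 3 * m ^ 6)
  + (-24524881920 * a * d * l ^ 3 * m ^ 6 - 380160 * a ^ 3 * b * l ^ 2 * m ^ 7
      - 52553318400 * b * d * l ^ 2 * m ^ 7 - 106920 * a ^ 5 * l * m ^ 8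
      - 41385738240 * a ^ 2 * d * l * m ^ 8 - 13200 * a ^ 4 * b * m ^ 9
      - 11678515200 * a * b * d * m ^ 9)

/-- See the module docstring. -/
def covDmmm (a b d l m : R) : R :=
  (-2640 * b * l ^ 9 - 35640 * a ^ 2 * l ^ 8 * m - 190080 * a * b * l ^ 7 * m ^ 2
      - 554400 * a ^ 3 * l ^ 6 * m ^ 3 + 2189721600 * d * l ^ 6 * m ^ 3
      - 997920 * a ^ 2 * b * l ^ 5 * m ^ 4 - 1164240 * a ^ 4 * l ^ 4 * m ^ 5
      - 36787322880 * a * d * l ^ 4 * m ^ 5)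
  + (-887040 * a ^ 3 * b * l ^ 3 * m ^ 6 - 122624409600 * b * d * l ^ 3 * m ^ 6
      - 427680 * a ^ 5 * l ^ 2 * m ^ 7 - 165542952960 * a ^ 2 * d * l ^ 2 * m ^ 7
      - 118800 * a ^ 4 * b * l * m ^ 8 - 105106636800 * a * b * d * l * m ^ 8
      - 14520 * a ^ 6 * m ^ 9 - 25692733440 * a ^ 3 * d * m ^ 9)
  + (403609485312000 * d ^ 2 * m ^ 9)

/-- Hessian of `covD`. -/
def covHess (a b d l m : R) : R :=
  covDll a b d l m * covDmm a b d l m - covDlm a b d l m ^ 2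

/-- Jacobian of `covD` and its Hessian. -/
def covJac (a b d l m : R) : R :=
  covDl a b d l m * (covDllm a b d l m * covDmm a b d l m
      + covDll a b d l m * covDmmm a b d l m - 2 * covDlm a b d l m * covDlmm a b d l m)
    - covDm a b d l m * (covDlll a b d l m * covDmm a b d l m
      + covDll a b d l m * covDlmm a b d l m - 2 * covDlm a b d l m * covDllm a b d l m)

end FermatAgent.Switch
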