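import Fermat.Agent.Switch.LinePolys
import Fermat.Agent.Switch.ThreeTorsion

/-!
# The mod 3 resolvent has no polynomial root along the line
-/

set_option autoImplicit false

namespace FermatAgent.Switch

open Polynomial

variable {K : Type*} [Field K] (a b d M : K)

lemma eval_lineL (r : K) : (lineL M).eval r = M * r + 1 := by simp [lineL]

lemma eval_polyD (r : K) : (polyD a b d M).eval r = covD a b d (M * r + 1) M := by
  rw [polyD, ← coe_evalRingHom, map_covD]
  simp only [coe_evalRingHom, eval_C, eval_lineL]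

lemma eval_polyC₄ (r : K) :
    (polyC₄ a b d M).eval r = (-17424)⁻¹ * covHess a b d (M * r + 1) M := by
  rw [polyC₄, eval_mul, eval_C, ← coe_evalRingHom, map_covHess]
  simp only [coe_evalRingHom, eval_C, eval_lineL]

lemma eval_polyC₆ (r : K) :
    (polyC₆ a b d M).eval r = (-4181760)⁻¹ * covJac a b d (M * r + 1) M := by
  rw [polyC₆, eval_mul, eval_C, ← coe_evalRingHom, map_covJac]
  simp only [coe_evalRingHom, eval_C, eval_lineL]

variable {a b d M} [IsAlgClosed K] [CharZero K]

lemma exists_line_point (habd : a ^ 3 - b ^ 2 = 1728 * d) (hd : d ≠ 0) (r : K) :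
    ∃ u v : K, kleinF u v ≠ 0 ∧ kleinF u v ^ 5 = d ∧
      kleinF (lineU u v (M * r + 1) M) (lineV u v (M * r + 1) M) =
        kleinF u v * (polyD a b d M).eval r ∧
      kleinH (lineU u v (M * r + 1) M) (lineV u v (M * r + 1) M) = (polyC₄ a b d M).eval r ∧
      kleinT (lineU u v (M * r + 1) M) (lineV u v (M * r + 1) M) = (polyC₆ a b d M).eval r := by
  obtain ⟨u, v, hH, hT, hF5, hf⟩ := exists_base (by norm_num) habd hd
  refine ⟨u, v, hf, hF5, ?_, ?_, ?_⟩
  · rw [kleinF_line, hH, hT, hF5, eval_polyD]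
  · rw [eval_polyC₄, ← hH, ← hT, ← hF5, covHess_eq _ _ _ _ hf, inv_mul_cancel_left₀ (by norm_num)]
  · rw [eval_polyC₆, ← hH, ← hT, ← hF5, covJac_eq _ _ _ _ hf, inv_mul_cancel_left₀ (by norm_num)]

lemma polyC_identity (habd : a ^ 3 - b ^ 2 = 1728 * d) (hd : d ≠ 0) :
    polyC₄ a b d M ^ 3 - polyC₆ a b d M ^ 2 = 1728 * C d * polyD a b d M ^ 5 := by
  refine Polynomial.funext fun r => ?_
  obtain ⟨u, v, -, hF5, hD, hH, hT⟩ := exists_line_point (M := M) habd hd r
  simp only [eval_sub, eval_pow, eval_mul, eval_C, eval_ofNat]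
  rw [← hH, ← hT, klein_syzygy, hD, ← hF5]
  ring

lemma polyC₄_ne_zero_at_root (habd : a ^ 3 - b ^ 2 = 1728 * d) (hd : d ≠ 0) (hM : M ≠ 0) {r : K}
    (hr : (polyD a b d M).eval r = 0) : (polyC₄ a b d M).eval r ≠ 0 := by
  intro hC
  obtain ⟨u, v, hf, -, hD, hH, -⟩ := exists_line_point (M := M) habd hd r
  rw [hr, mul_zero] at hD
  rw [hC] at hH
  obtain ⟨hU, hV⟩ := eq_zero_of_kleinF_kleinH (by norm_num) hD hH
  exact hM (eq_zero_of_line_eq_zero (by norm_num) hf hU hV).2

lemma nodup_roots_polyD (habd : a ^ 3 - b ^ 2 = 1728 * d) (hd : d ≠ 0) (hM : M ≠ 0) :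
    (polyD a b d M).roots.Nodup := by
  classical
  have hD0 : polyD a b d M ≠ 0 := fun e => by
    simpa [e] using natDegree_polyD a b d hM
  refine Multiset.nodup_iff_count_le_one.2 fun r => le_of_not_gt fun h => ?_
  rw [count_roots] at h
  obtain ⟨h0, h1⟩ := (one_lt_rootMultiplicity_iff_isRoot hD0).1 h
  have hC := polyC₄_ne_zero_at_root habd hd hM h0
  rw [IsRoot.def, polyD, derivative_covD, eval_mul, show derivative (lineL M) = C M by simp [lineL],
    eval_C, mul_eq_zero, or_iff_left hM, ← coe_evalRingHom, map_covDl] at h1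
  simp only [coe_evalRingHom, eval_C, eval_lineL] at h1
  rw [IsRoot.def, eval_polyD] at h0
  set l := M * r + 1
  have hm : covDm a b d l M = 0 := by
    have := covD_euler a b d l M
    rw [h0, h1, mul_zero, mul_zero, zero_add, zero_eq_mul] at this
    exact this.resolve_left hM
  have e1 := covDl_euler a b d l M
  have e2 := covDm_euler a b d l M
  rw [h1, mul_zero] at e1
  rw [hm, mul_zero] at e2
  refine hC ?_
  have hH : M * covHess a b d l M = 0 := by
    simp only [covHess]
    linear_combination covDlm a b d l M * e1 - covDll a b d l M * e2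
  rw [eval_polyC₄, (mul_eq_zero.1 hH).resolve_left hM, mul_zero]

omit [IsAlgClosed K] [CharZero K] in
lemma natDegree_le_of_threeQuartic {A B P : K[X]} (hA : A.natDegree ≤ 20)
    (hB : B.natDegree ≤ 30) (h : threeQuartic A B P = 0) : P.natDegree ≤ 10 := by
  by_contra hlt
  have e : P ^ 4 = 6 * A * P ^ 2 + 8 * B * P + 3 * A ^ 2 := by
    rw [threeQuartic] at h; linear_combination h
  have := congrArg natDegree e
  rw [natDegree_pow] at this
  have h6 : (6 : K[X]).natDegree = 0 := natDegree_natCast 6
  have h8 : (8 : K[X]).natDegree = 0 := natDegree_natCast 8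
  have h3 : (3 : K[X]).natDegree = 0 := natDegree_natCast 3
  have hb : (6 * A * P ^ 2 + 8 * B * P + 3 * A ^ 2).natDegree ≤
      max (max (20 + 2 * P.natDegree) (30 + P.natDegree)) 40 := by
    refine (natDegree_add_le _ _).trans (max_le_max ?_ ?_)
    · refine (natDegree_add_le _ _).trans (max_le_max ?_ ?_)
      · have := natDegree_mul_le (p := (6 : K[X]) * A) (q := P ^ 2)
        have := natDegree_mul_le (p := (6 : K[X])) (q := A)
        have := natDegree_pow P 2
        omega
      · have := natDegree_mul_le (p := (8 : K[X]) * B) (q := P)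
        have := natDegree_mul_le (p := (8 : K[X])) (q := B)
        omega
    · have := natDegree_mul_le (p := (3 : K[X])) (q := A ^ 2)
      have := natDegree_pow A 2
      omega
  rw [← this] at hb
  omega

/-- The quartic `threeQuartic C₄ C₆` has no root in `K[X]`. -/
theorem no_polynomial_root (habd : a ^ 3 - b ^ 2 = 1728 * d) (hd : d ≠ 0) (hM : M ≠ 0)
    (P : K[X]) : threeQuartic (polyC₄ a b d M) (polyC₆ a b d M) P ≠ 0 := by
  classical
  intro hP
  have hid := polyC_identity (M := M) habd hd
  have hdeg := natDegree_le_of_threeQuartic (natDegree_polyC₄_le a b d M)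
    (natDegree_polyC₆_le a b d M) hP
  have hCle := natDegree_polyC₄_le a b d M
  have hDroots : (polyD a b d M).roots.card = 12 := by
    rw [IsAlgClosed.card_roots_eq_natDegree, natDegree_polyD a b d hM]
  have hroot : ∀ r ∈ (polyD a b d M).roots, (polyC₄ a b d M).eval r ≠ 0 := fun r hr =>
    polyC₄_ne_zero_at_root habd hd hM (mem_roots'.1 hr).2
  have hnd := nodup_roots_polyD habd hd hM
  rw [threeQuartic] at hP
  have hD0 : polyD a b d M ≠ 0 := fun e => by
    simpa [e] using natDegree_polyD a b d hM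
  generalize polyC₄ a b d M = A at *
  generalize polyC₆ a b d M = B at *
  generalize polyD a b d M = D at *
  have hP0 : P ≠ 0 := fun e => by
    obtain ⟨r, hr⟩ := Multiset.card_pos_iff_exists_mem.1 (by omega : 0 < D.roots.card)
    refine hroot r hr ?_
    have := congrArg (Polynomial.eval r) hP
    simpa [e] using this
  have key : C (-(64 * 1728 * d)) * (P ^ 2 * D ^ 5) = (P ^ 2 - A) ^ 3 * (P ^ 2 - 9 * A) := by
    simp only [map_neg, map_mul, map_ofNat]
    linear_combination (64 * P ^ 2) * hid
      - (8 * B * P + P ^ 4 - 6 * A * P ^ 2 - 3 * A ^ 2) * hP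
  have hk : -(64 * 1728 * d) ≠ 0 := by simp [hd]
  have hne : (P ^ 2 - A) ^ 3 * (P ^ 2 - 9 * A) ≠ 0 := by
    rw [← key]
    exact mul_ne_zero (C_ne_zero.2 hk) (mul_ne_zero (pow_ne_zero _ hP0) (pow_ne_zero _ hD0))
  have h9 : (P ^ 2 - 9 * A).natDegree ≤ 20 := by
    have h9' : (9 : K[X]).natDegree = 0 := natDegree_natCast 9
    have := natDegree_sub_le (P ^ 2) (9 * A)
    have := natDegree_pow P 2
    have := natDegree_mul_le (p := (9 : K[X])) (q := A)
    omega
  have hle : 5 • D.roots ≤ (P ^ 2 - 9 * A).roots := by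
    refine Multiset.le_iff_count.2 fun r => ?_
    rw [Multiset.count_nsmul]
    by_cases hr : r ∈ D.roots
    swap
    · simp [Multiset.count_eq_zero.2 hr]
    have h := congrArg (fun p : K[X] => p.roots.count r) key
    simp only [roots_C_mul _ hk, roots_mul hne, roots_pow,
      roots_mul (mul_ne_zero (pow_ne_zero 2 hP0) (pow_ne_zero 5 hD0)), Multiset.count_add,
      Multiset.count_nsmul, Multiset.count_eq_one_of_mem hnd hr] at h
    have hPr : P.roots.count r = 0 := Multiset.count_eq_zero.2 fun hm => hroot r hr <| by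
      have := congrArg (Polynomial.eval r) hP
      simpa [(mem_roots'.1 hm).2.eq_zero] using this
    have hnot : (P ^ 2 - A).roots.count r = 0 ∨ (P ^ 2 - 9 * A).roots.count r = 0 := by
      by_contra hc
      rw [not_or, Multiset.count_eq_zero, Multiset.count_eq_zero, not_not, not_not] at hc
      refine hroot r hr ?_
      have h1 := (mem_roots'.1 hc.1).2.eq_zero
      have h2 := (mem_roots'.1 hc.2).2.eq_zero
      simp only [eval_sub, eval_mul, eval_pow, eval_ofNat] at h1 h2
      linear_combination (h1 - h2) / 8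
    rw [Multiset.count_eq_one_of_mem hnd hr]
    omega
  have := Multiset.card_le_card hle
  rw [Multiset.card_nsmul, hDroots] at this
  have := card_roots' (P ^ 2 - 9 * A)
  omega

end FermatAgent.Switch
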