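import Fermat.Agent.Switch.ThreeTorsion
import Mathlib

/-!
# Integral roots of the resolvent along the line are eventually polynomial

An elementary case of Hilbert irreducibility: the real branches of the resolvent at infinity are
`y = Π(n) + O(1/n)` for polynomials `Π` of degree at most `10`.
-/

set_option autoImplicit false

namespace FermatAgent.Switch

open Polynomial Filter
open scoped Topology

section Algebra

variable {K : Type*} [Field K]

lemma threeQuartic_smul (s A B z : K) :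
    threeQuartic (s ^ 2 * A) (s ^ 3 * B) (s * z) = s ^ 4 * threeQuartic A B z := by
  simp only [threeQuartic]; ring

/-- A root of `threeQuartic a b` is simple when `a³ ≠ b²`. -/
lemma threeQuartic_slope_ne_zero [CharZero K] {a b c : K} (hc : threeQuartic a b c = 0)
    (hne : a ^ 3 ≠ b ^ 2) : 4 * c ^ 3 - 12 * a * c - 8 * b ≠ 0 := by
  intro h
  simp only [threeQuartic] at hc
  have ha : (c ^ 2 - a) ^ 2 = 0 := by linear_combination (c * h - hc) / 3
  have ha' : a = c ^ 2 := (sub_eq_zero.1 (eq_zero_of_pow_eq_zero ha)).symm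
  have hb : b = -c ^ 3 := by linear_combination -h / 8 - (3 / 2 : K) * c * ha'
  exact hne (by rw [ha', hb]; ring)

/-- Truncated branch through a simple root. -/
lemma exists_branch [CharZero K] (p r : K[X]) {c : K}
    (hc : threeQuartic (p.eval 0) (r.eval 0) c = 0) (hne : p.eval 0 ^ 3 ≠ r.eval 0 ^ 2) (k : ℕ) :
    ∃ π : K[X], π.natDegree ≤ k ∧ π.eval 0 = c ∧ X ^ (k + 1) ∣ threeQuartic p r π := by
  induction k with
  | zero =>
    refine ⟨C c, by simp, by simp, ?_⟩
    rw [pow_one, X_dvd_iff, coeff_zero_eq_eval_zero, ← coe_evalRingHom, map_threeQuartic]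
    simpa using hc
  | succ k ih =>
    obtain ⟨π, hdeg, h0, g, hg⟩ := ih
    have hslope := threeQuartic_slope_ne_zero hc hne
    set e := -g.eval 0 / (4 * c ^ 3 - 12 * p.eval 0 * c - 8 * r.eval 0) with he
    set t : K[X] := C e * X ^ (k + 1)
    refine ⟨π + t, ?_, by simp [t, h0], ?_⟩
    · exact natDegree_add_le_of_degree_le (hdeg.trans k.le_succ) (natDegree_C_mul_X_pow_le _ _)
    set h : K[X] := g + C e * (4 * π ^ 3 - 12 * p * π - 8 * r)
      + C e * t * (6 * π ^ 2 + 4 * π * t + t ^ 2 - 6 * p)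
    have hh : threeQuartic p r (π + t) = X ^ (k + 1) * h := by
      simp only [h, threeQuartic, t] at hg ⊢
      linear_combination hg
    obtain ⟨h', hh'⟩ : X ∣ h := by
      rw [X_dvd_iff, coeff_zero_eq_eval_zero]
      simp only [h, t, eval_add, eval_sub, eval_mul, eval_pow, eval_C, eval_X, eval_ofNat, h0,
        zero_pow (Nat.succ_ne_zero k), mul_zero, zero_mul, add_zero]
      have hes : e * (4 * c ^ 3 - 12 * p.eval 0 * c - 8 * r.eval 0) = -g.eval 0 :=
        div_mul_cancel₀ _ hslope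
      linear_combination hes
    exact ⟨h', by rw [hh, hh', pow_succ' X (k + 1)]; ring⟩

/-- `λ ^ 10 π(M / λ)` for `λ = M X + 1`. -/
noncomputable def homog (M : K) (π : K[X]) : K[X] :=
  ∑ i ∈ Finset.range 11, C (π.coeff i * M ^ i) * (C M * X + 1) ^ (10 - i)

lemma natDegree_homog_le (M : K) (π : K[X]) : (homog M π).natDegree ≤ 10 := by
  refine natDegree_sum_le_of_forall_le _ _ fun i _ => (natDegree_C_mul_le _ _).trans ?_
  refine (natDegree_pow_le_of_le (m := 1) _ (by compute_degree)).trans ?_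
  omega

lemma eval_homog (M n : K) {π : K[X]} (hπ : π.natDegree ≤ 10) (hw : M * n + 1 ≠ 0) :
    (homog M π).eval n = (M * n + 1) ^ 10 * π.eval (M / (M * n + 1)) := by
  rw [eval_eq_sum_range' (Nat.lt_succ_of_le hπ), homog, eval_finsetSum, Finset.mul_sum]
  refine Finset.sum_congr rfl fun i hi => ?_
  have hi' : i ≤ 10 := Nat.lt_succ_iff.1 (Finset.mem_range.1 hi)
  have hsplit : (M * n + 1) ^ 10 = (M * n + 1) ^ (10 - i) * (M * n + 1) ^ i := by
    rw [← pow_add, Nat.sub_add_cancel hi']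
  simp only [eval_mul, eval_C, eval_pow, eval_add, eval_one, eval_X, div_pow, hsplit]
  field_simp

lemma map_homog {L : Type*} [Field L] (g : K →+* L) (M : K) (π : K[X]) :
    (homog M π).map g = homog (g M) (π.map g) := by
  simp [homog, Polynomial.map_sum, coeff_map]

end Algebra

/-- A quartic `y⁴ - 6 a y² - 8 b y - 3 a²` has at most two real roots. -/
lemma two_real_roots {a b x y z : ℝ} (hx : threeQuartic a b x = 0) (hy : threeQuartic a b y = 0)
    (hz : threeQuartic a b z = 0) : x = y ∨ x = z ∨ y = z := by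
  by_contra h
  simp only [not_or] at h
  obtain ⟨hxy, hxz, hyz⟩ := h
  simp only [threeQuartic] at hx hy hz
  have h2 : (x + y) * (x ^ 2 + y ^ 2) - 6 * a * (x + y) - 8 * b = 0 :=
    mul_left_cancel₀ (sub_ne_zero.2 hxy) (by linear_combination hx - hy)
  have h3 : (x + z) * (x ^ 2 + z ^ 2) - 6 * a * (x + z) - 8 * b = 0 :=
    mul_left_cancel₀ (sub_ne_zero.2 hxz) (by linear_combination hx - hz)
  have hS : x ^ 2 + y ^ 2 + z ^ 2 + x * y + x * z + y * z = 6 * a :=
    mul_left_cancel₀ (sub_ne_zero.2 hyz) (by linear_combination h2 - h3)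
  have hb : 8 * b = -((x + y) * (x + z) * (y + z)) := by
    linear_combination -h2 + (x + y) * hS
  set w := -(x + y + z) with hw
  have hP : x * y * z * w = -3 * a ^ 2 := by
    rw [hw]; linear_combination -hx + x ^ 2 * hS - x * hb
  have hsq : ((x - y) * (z - w)) ^ 2 + ((x - z) * (y - w)) ^ 2 + ((x - w) * (y - z)) ^ 2 = 0 := by
    rw [hw] at hP ⊢
    linear_combination
      (2 * ((x ^ 2 + y ^ 2 + z ^ 2 + x * y + x * z + y * z) + 6 * a)) * hS + 24 * hP
  have e1 : (x - y) * (z - w) = 0 := by nlinarith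
  have e2 : (x - z) * (y - w) = 0 := by nlinarith
  have h1 := (mul_eq_zero.1 e1).resolve_left (sub_ne_zero.2 hxy)
  have h2 := (mul_eq_zero.1 e2).resolve_left (sub_ne_zero.2 hxz)
  exact hyz (by linarith)

lemma abs_le_of_threeQuartic {A B R z : ℝ} (hA : |A| ≤ R) (hB : |B| ≤ R)
    (hz : threeQuartic A B z = 0) : |z| ≤ 1 + 6 * R + 8 * R + 3 * R ^ 2 := by
  have hR : 0 ≤ R := (abs_nonneg A).trans hA
  by_contra hlt
  have h1 : 1 < |z| := by nlinarith
  simp only [threeQuartic] at hz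
  have h4 : |z| ^ 4 = 6 * A * z ^ 2 + 8 * B * z + 3 * A ^ 2 := by
    rw [← abs_pow, abs_of_nonneg (by positivity)]; linear_combination hz
  have t1 : 6 * A * z ^ 2 ≤ 6 * R * |z| ^ 2 := by
    rw [sq_abs]; exact mul_le_mul_of_nonneg_right (by linarith [le_abs_self A]) (sq_nonneg z)
  have t2 : 8 * B * z ≤ 8 * R * |z| ^ 2 := by
    refine (le_abs_self _).trans ?_
    rw [abs_mul, abs_mul, abs_of_pos (by norm_num : (0 : ℝ) < 8)]
    nlinarith [mul_le_mul hB (le_refl |z|) (abs_nonneg z) hR,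
      mul_le_mul_of_nonneg_left (le_self_pow₀ h1.le (two_ne_zero : 2 ≠ 0)) hR]
  have t3 : 3 * A ^ 2 ≤ 3 * R ^ 2 * |z| ^ 2 := by
    have : A ^ 2 ≤ R ^ 2 := by rw [← sq_abs A]; exact pow_le_pow_left₀ (abs_nonneg _) hA 2
    nlinarith [mul_le_mul_of_nonneg_left (one_le_pow₀ h1.le : 1 ≤ |z| ^ 2) (sq_nonneg R)]
  have : |z| ^ 2 * |z| ^ 2 ≤ (6 * R + 8 * R + 3 * R ^ 2) * |z| ^ 2 := by nlinarith
  have := le_of_mul_le_mul_right this (by positivity)
  nlinarith

/-- Convergence of a root to the branch through its limit. -/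
lemma tendsto_sub_homog {p r π : ℝ[X]} {M c : ℝ} {F : Filter ℕ} (hF : F ≤ atTop) (hM : 0 < M)
    (hπ : π.natDegree ≤ 10) (h0 : π.eval 0 = c) (hdvd : X ^ 11 ∣ threeQuartic p r π)
    (hc : threeQuartic (p.eval 0) (r.eval 0) c = 0) (hne : p.eval 0 ^ 3 ≠ r.eval 0 ^ 2)
    {y : ℕ → ℝ} (hy : ∀ᶠ n : ℕ in F, threeQuartic (p.eval (M / (M * n + 1)))
      (r.eval (M / (M * n + 1))) (y n / (M * n + 1) ^ 10) = 0)
    (hz : Tendsto (fun n : ℕ => y n / (M * n + 1) ^ 10) F (𝓝 c)) :
    Tendsto (fun n : ℕ => y n - (homog M π).eval (n : ℝ)) F (𝓝 0) := by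
  set u : ℕ → ℝ := fun n => M / (M * n + 1)
  have hw : ∀ n : ℕ, M * n + 1 ≠ 0 := fun n => by positivity
  have hu : Tendsto u F (𝓝 0) := (tendsto_const_nhds.div_atTop
    ((tendsto_natCast_atTop_atTop.const_mul_atTop hM).atTop_add tendsto_const_nhds)).mono_left hF
  have hev : ∀ s : ℝ[X], Tendsto (fun n => s.eval (u n)) F (𝓝 (s.eval 0)) :=
    fun s => (s.continuous.tendsto 0).comp hu
  obtain ⟨g, hg⟩ := hdvd
  set S : ℕ → ℝ := fun n => (y n / (M * n + 1) ^ 10 + π.eval (u n))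
      * ((y n / (M * n + 1) ^ 10) ^ 2 + π.eval (u n) ^ 2)
      - 6 * p.eval (u n) * (y n / (M * n + 1) ^ 10 + π.eval (u n)) - 8 * r.eval (u n)
  have hS : Tendsto S F (𝓝 (4 * c ^ 3 - 12 * p.eval 0 * c - 8 * r.eval 0)) := by
    have hπ' := hev π
    rw [h0] at hπ'
    have := (((hz.add hπ').mul ((hz.pow 2).add (hπ'.pow 2))).sub
      (((hev p).const_mul 6).mul (hz.add hπ'))).sub ((hev r).const_mul 8)
    convert this using 2
    ring
  have hslope := threeQuartic_slope_ne_zero hc hne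
  have hlim : Tendsto (fun n => -(M ^ 10 * u n * g.eval (u n)) / S n) F (𝓝 0) := by
    have := ((hu.const_mul (M ^ 10)).mul (hev g)).neg.div hS hslope
    rwa [mul_zero, zero_mul, neg_zero, zero_div] at this
  refine hlim.congr' ?_
  filter_upwards [hy, hS.eventually_ne hslope] with n hn hSn
  have hQ := congrArg (Polynomial.eval (u n)) hg
  rw [← coe_evalRingHom, map_threeQuartic] at hQ
  simp only [coe_evalRingHom, eval_mul, eval_pow, eval_X] at hQ
  have hkey : (y n / (M * n + 1) ^ 10 - π.eval (u n)) * S n = -(u n ^ 11 * g.eval (u n)) := by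
    simp only [threeQuartic] at hn hQ
    simp only [S]
    linear_combination hn - hQ
  have hwu : (M * n + 1) * u n = M := by simp only [u]; field_simp [hw n]
  rw [eval_homog M n hπ (hw n), div_eq_iff hSn]
  calc -(M ^ 10 * u n * g.eval (u n))
      = (M * n + 1) ^ 10 * (-(u n ^ 11 * g.eval (u n))) := by
        rw [show M ^ 10 = ((M * n + 1) * u n) ^ 10 by rw [hwu]]; ring
    _ = (M * n + 1) ^ 10 * ((y n / (M * n + 1) ^ 10 - π.eval (u n)) * S n) := by rw [hkey]
    _ = _ := by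
      have e : (M * n + 1) ^ 10 * (y n / (M * n + 1) ^ 10 - π.eval (u n)) =
          y n - (M * n + 1) ^ 10 * π.eval (u n) := by
        rw [mul_sub, mul_div_cancel₀ _ (pow_ne_zero 10 (hw n))]
      rw [← mul_assoc, e]

/-- A sequence of integers whose eleventh differences vanish eventually is eventually polynomial. -/
lemma exists_poly_of_fwdDiff {y : ℕ → ℤ} {n₁ : ℕ} (h : ∀ n ≥ n₁, (fwdDiff (1 : ℕ))^[11] y n = 0) :
    ∃ P : ℚ[X], ∀ n ≥ n₁, (y n : ℚ) = P.eval (n : ℚ) := by
  have hk : ∀ j, ∀ n ≥ n₁, (fwdDiff (1 : ℕ))^[11 + j] y n = 0 := by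
    intro j
    induction j with
    | zero => exact h
    | succ j ih =>
      intro n hn
      rw [← add_assoc, Function.iterate_succ_apply', fwdDiff, ih n hn, ih (n + 1) (by omega),
        sub_zero]
  refine ⟨∑ k ∈ Finset.range 11, C ((((fwdDiff (1 : ℕ))^[k] y n₁ : ℤ) : ℚ) / k.factorial)
    * (descPochhammer ℚ k).comp (X - C (n₁ : ℚ)), fun n hn => ?_⟩
  obtain ⟨m, rfl⟩ := Nat.exists_eq_add_of_le hn
  have hs := shift_eq_sum_fwdDiff_iter 1 y m n₁
  rw [nsmul_one, Nat.cast_id] at hs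
  have hext : ∑ k ∈ Finset.range (m + 1), m.choose k • (fwdDiff (1 : ℕ))^[k] y n₁ =
      ∑ k ∈ Finset.range 11, m.choose k • (fwdDiff (1 : ℕ))^[k] y n₁ := by
    rcases le_total (m + 1) 11 with hm | hm
    · refine Finset.sum_subset (Finset.range_subset_range.2 hm) fun k _ hk' => ?_
      rw [Finset.mem_range, not_lt] at hk'
      rw [Nat.choose_eq_zero_of_lt (by omega), zero_smul]
    · refine (Finset.sum_subset (Finset.range_subset_range.2 hm) fun k _ hk' => ?_).symm
      rw [Finset.mem_range, not_lt] at hk'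
      obtain ⟨j, rfl⟩ := Nat.exists_eq_add_of_le hk'
      rw [hk j n₁ le_rfl, smul_zero]
  rw [hs, hext, eval_finsetSum, Int.cast_sum]
  refine Finset.sum_congr rfl fun k _ => ?_
  rw [eval_mul, eval_C, eval_comp, eval_sub, eval_X, eval_C, Nat.cast_add, add_sub_cancel_left,
    nsmul_eq_mul, Int.cast_mul, Int.cast_natCast, Nat.cast_choose_eq_descPochhammer_div ℚ]
  ring

lemma eventually_eq_zero_of_tendsto {ι : Type*} {F : Filter ι} {f : ι → ℤ}
    (h : Tendsto (fun i => (f i : ℝ)) F (𝓝 0)) : ∀ᶠ i in F, f i = 0 := by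
  filter_upwards [h.eventually (Metric.ball_mem_nhds (0 : ℝ) one_pos)] with i hi
  rw [dist_zero_right, Real.norm_eq_abs, ← Int.cast_abs] at hi
  exact Int.abs_lt_one_iff.1 (by exact_mod_cast hi)

/-- Integral roots along the line are infinitely often values of one polynomial. -/
theorem frequently_eq_polynomial {p r : ℚ[X]} {c : ℚ} {M : ℕ} (hM : 0 < M)
    (hc : threeQuartic (p.eval 0) (r.eval 0) c = 0) (hne : p.eval 0 ^ 3 ≠ r.eval 0 ^ 2)
    {y : ℕ → ℤ} (hy : ∀ᶠ n : ℕ in atTop, threeQuartic (p.eval ((M : ℚ) / (M * n + 1)))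
      (r.eval ((M : ℚ) / (M * n + 1))) ((y n : ℚ) / (M * n + 1) ^ 10) = 0) :
    ∃ P : ℚ[X], ∃ᶠ n : ℕ in atTop, (y n : ℚ) = P.eval (n : ℚ) := by
  classical
  set ι := Rat.castHom ℝ
  set P' := p.map ι
  set R' := r.map ι
  have heval : ∀ (s : ℚ[X]) (q : ℚ), (s.map ι).eval (ι q) = ι (s.eval q) :=
    fun s q => Polynomial.eval_map_apply _ q
  have hP0 : P'.eval 0 = ι (p.eval 0) := by rw [← heval, map_zero]
  have hR0 : R'.eval 0 = ι (r.eval 0) := by rw [← heval, map_zero]
  have hne' : P'.eval 0 ^ 3 ≠ R'.eval 0 ^ 2 := by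
    rw [hP0, hR0, ← map_pow, ← map_pow]; exact fun e => hne (ι.injective e)
  have hM' : (0 : ℝ) < M := by exact_mod_cast hM
  set z : ℕ → ℝ := fun n => (y n : ℝ) / ((M : ℝ) * n + 1) ^ 10 with hzdef
  have hy' : ∀ᶠ n : ℕ in atTop, threeQuartic (P'.eval ((M : ℝ) / (M * n + 1)))
      (R'.eval ((M : ℝ) / (M * n + 1))) (z n) = 0 := by
    filter_upwards [hy] with n hn
    rw [show (M : ℝ) / (M * n + 1) = ι ((M : ℚ) / (M * n + 1)) by simp [ι],
      heval, heval, show z n = ι ((y n : ℚ) / (M * n + 1) ^ 10) by simp [ι, z],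
      ← map_threeQuartic, hn, map_zero]
  have hu : Tendsto (fun n : ℕ => (M : ℝ) / (M * n + 1)) atTop (𝓝 0) :=
    tendsto_const_nhds.div_atTop
      ((tendsto_natCast_atTop_atTop.const_mul_atTop hM').atTop_add tendsto_const_nhds)
  have hev : ∀ s : ℝ[X], Tendsto (fun n : ℕ => s.eval ((M : ℝ) / (M * n + 1))) atTop (𝓝 (s.eval 0)) :=
    fun s => (s.continuous.tendsto 0).comp hu
  -- bounded
  set R := |P'.eval 0| + |R'.eval 0| + 1
  set B := 1 + 6 * R + 8 * R + 3 * R ^ 2
  have hbd : ∀ᶠ n in atTop, z n ∈ Set.Icc (-B) B := by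
    filter_upwards [hy', (hev P').abs.eventually_le_const
      (show |P'.eval 0| < R by simp only [R]; linarith [abs_nonneg (R'.eval 0)]),
      (hev R').abs.eventually_le_const
      (show |R'.eval 0| < R by simp only [R]; linarith [abs_nonneg (P'.eval 0)])] with n hn h1 h2
    exact abs_le.1 (abs_le_of_threeQuartic h1 h2 hn)
  have hlimit : ∀ F : Ultrafilter ℕ, (F : Filter ℕ) ≤ atTop → ∃ w,
      Tendsto z F (𝓝 w) ∧ threeQuartic (P'.eval 0) (R'.eval 0) w = 0 := by
    intro F hF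
    obtain ⟨w, -, hw⟩ := isCompact_Icc.ultrafilter_le_nhds (F.map z)
      (le_principal_iff.2 (hbd.filter_mono hF))
    have hw' : Tendsto z F (𝓝 w) := hw
    refine ⟨w, hw', tendsto_nhds_unique ?_ (tendsto_const_nhds.congr'
      ((hy'.filter_mono hF).mono fun n hn => hn.symm))⟩
    have hp := (hev P').mono_left hF
    have hr := (hev R').mono_left hF
    simp only [threeQuartic]
    exact (((hw'.pow 4).sub ((hp.const_mul 6).mul (hw'.pow 2))).sub
      ((hr.const_mul 8).mul hw')).sub ((hp.pow 2).const_mul 3)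
  by_cases hA : ∃ F : Ultrafilter ℕ, (F : Filter ℕ) ≤ atTop ∧ Tendsto z F (𝓝 (ι c))
  · obtain ⟨F, hF, hzF⟩ := hA
    obtain ⟨π, hπ, hπ0, hdvd⟩ := exists_branch p r hc hne 10
    have hdvd' : X ^ 11 ∣ threeQuartic P' R' (π.map ι) := by
      have := map_dvd (Polynomial.mapRingHom ι) hdvd
      rwa [map_threeQuartic, map_pow, coe_mapRingHom, map_X] at this
    have hlim := tendsto_sub_homog (y := fun n => (y n : ℝ)) hF hM'
      ((natDegree_map_le).trans hπ) (by rw [← map_zero ι, heval, hπ0]) hdvd'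
      (by rw [hP0, hR0, ← map_threeQuartic, hc, map_zero]) hne' (hy'.filter_mono hF) hzF
    rw [show (M : ℝ) = ι (M : ℚ) by simp [ι], ← map_homog] at hlim
    set Pl := homog (M : ℚ) π
    obtain ⟨D, hD, hq⟩ := IsLocalization.integerNormalization_spec (nonZeroDivisors ℤ) Pl
    set q := IsLocalization.integerNormalization (nonZeroDivisors ℤ) Pl
    have hqe : ∀ n : ℕ, ((q.eval (n : ℤ) : ℤ) : ℚ) = D * Pl.eval (n : ℚ) := fun n => by
      have := congrArg (Polynomial.eval (n : ℚ)) hq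
      rw [eval_smul, zsmul_eq_mul] at this
      rw [← this, ← Int.cast_natCast (R := ℚ) n, algebraMap_int_eq, ← eq_intCast (Int.castRingHom ℚ),
        ← eq_intCast (Int.castRingHom ℚ) (n : ℤ), Polynomial.eval_map_apply]
    have h0 : ∀ᶠ n in (F : Filter ℕ), D * y n - q.eval (n : ℤ) = 0 := by
      refine eventually_eq_zero_of_tendsto ?_
      have := hlim.const_mul (D : ℝ)
      rw [mul_zero] at this
      refine this.congr fun n => ?_
      rw [show (n : ℝ) = ι (n : ℚ) by simp [ι], heval, Int.cast_sub, Int.cast_mul, mul_sub,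
        ← Rat.cast_intCast (q.eval (n : ℤ)), hqe]
      simp [ι]
    refine ⟨Pl, (h0.frequently.filter_mono hF).mono fun n hn => ?_⟩
    have hn' : (D : ℚ) * y n = D * Pl.eval (n : ℚ) := by
      rw [← hqe, ← Int.cast_mul, sub_eq_zero.1 hn]
    exact mul_left_cancel₀ (Int.cast_ne_zero.2 (nonZeroDivisors.ne_zero hD)) hn'
  · simp only [not_exists, not_and] at hA
    obtain ⟨w, hzw, hw⟩ := hlimit (Ultrafilter.of atTop) (Ultrafilter.of_le _)
    have hwc : w ≠ ι c := fun e => hA _ (Ultrafilter.of_le _) (e ▸ hzw)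
    have htend : Tendsto z atTop (𝓝 w) := by
      rw [tendsto_iff_ultrafilter]
      intro F hF
      obtain ⟨w', hw', hroot⟩ := hlimit F hF
      have hcroot : threeQuartic (P'.eval 0) (R'.eval 0) (ι c) = 0 := by
        rw [hP0, hR0, ← map_threeQuartic, hc, map_zero]
      rcases two_real_roots hw hroot hcroot with e | e | e
      · rwa [e]
      · exact absurd e hwc
      · exact absurd (e ▸ hw') (hA F hF)
    obtain ⟨π, hπ, hπ0, hdvd⟩ := exists_branch P' R' hw hne' 10
    have hlim := tendsto_sub_homog (y := fun n => (y n : ℝ)) le_rfl hM' hπ hπ0 hdvd hw hne' hy'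
      htend
    set Pl := homog (M : ℝ) π
    have hd : Tendsto (fun n => (((fwdDiff (1 : ℕ))^[11] y n : ℤ) : ℝ)) atTop (𝓝 0) := by
      have hsum : ∀ n : ℕ, (((fwdDiff (1 : ℕ))^[11] y n : ℤ) : ℝ) = ∑ k ∈ Finset.range 12,
          ((-1 : ℤ) ^ (11 - k) * (Nat.choose 11 k : ℤ)) •
            ((y (n + k) : ℝ) - Pl.eval ((n + k : ℕ) : ℝ)) := by
        intro n
        have h0 := congrFun (Pl.fwdDiff_iter_eq_zero_of_degree_lt (n := 11)
          (Nat.lt_succ_of_le (natDegree_homog_le _ _))) (n : ℝ)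
        rw [fwdDiff_iter_eq_sum_shift, Pi.zero_apply] at h0
        rw [fwdDiff_iter_eq_sum_shift]
        simp only [zsmul_eq_mul, nsmul_eq_mul, mul_one, Nat.cast_id, Int.cast_id, mul_sub,
          Finset.sum_sub_distrib, Int.cast_sum, Int.cast_mul, Nat.cast_add] at h0 ⊢
        rw [h0, sub_zero]
      simp only [hsum]
      rw [show (0 : ℝ) = ∑ k ∈ Finset.range 12,
        ((-1 : ℤ) ^ (11 - k) * (Nat.choose 11 k : ℤ)) • (0 : ℝ) by simp]
      exact tendsto_finsetSum _ fun k _ => ((tendsto_add_atTop_iff_nat k).2 hlim).const_smul _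
    obtain ⟨n₁, hn₁⟩ := eventually_atTop.1 (eventually_eq_zero_of_tendsto hd)
    obtain ⟨P, hP⟩ := exists_poly_of_fwdDiff hn₁
    exact ⟨P, (eventually_atTop.2 ⟨n₁, hP⟩).frequently⟩

end FermatAgent.Switch
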