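import Fermat.Agent.Switch.Congruence

/-!
# The covariants along `n ↦ (1 + M n, M)` as polynomials: degrees, derivative, homogeneity
-/

set_option autoImplicit false
set_option maxRecDepth 4000

namespace FermatAgent.Switch

open Polynomial

section Ring

variable {R : Type*} [CommRing R] (a b d l m c : R)

lemma covD_euler : 12 * covD a b d l m = l * covDl a b d l m + m * covDm a b d l m := by
  simp only [covD, covDl, covDm]; ring

lemma covDl_euler : 11 * covDl a b d l m = l * covDll a b d l m + m * covDlm a b d l m := by
  simp only [covDl, covDll, covDlm]; ring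

lemma covDm_euler : 11 * covDm a b d l m = l * covDlm a b d l m + m * covDmm a b d l m := by
  simp only [covDm, covDlm, covDmm]; ring

lemma covHess_hom : covHess a b d (c * l) (c * m) = c ^ 20 * covHess a b d l m := by
  have h1 : covDll a b d (c * l) (c * m) = c ^ 10 * covDll a b d l m := by
    simp only [covDll]; ring
  have h2 : covDlm a b d (c * l) (c * m) = c ^ 10 * covDlm a b d l m := by
    simp only [covDlm]; ring
  have h3 : covDmm a b d (c * l) (c * m) = c ^ 10 * covDmm a b d l m := by
    simp only [covDmm]; ring
  simp only [covHess, h1, h2, h3]; ring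

lemma covJac_hom : covJac a b d (c * l) (c * m) = c ^ 30 * covJac a b d l m := by
  have h1 : covDl a b d (c * l) (c * m) = c ^ 11 * covDl a b d l m := by
    simp only [covDl]; ring
  have h2 : covDm a b d (c * l) (c * m) = c ^ 11 * covDm a b d l m := by
    simp only [covDm]; ring
  have h3 : covDll a b d (c * l) (c * m) = c ^ 10 * covDll a b d l m := by
    simp only [covDll]; ring
  have h4 : covDlm a b d (c * l) (c * m) = c ^ 10 * covDlm a b d l m := by
    simp only [covDlm]; ring
  have h5 : covDmm a b d (c * l) (c * m) = c ^ 10 * covDmm a b d l m := by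
    simp only [covDmm]; ring
  have h6 : covDlll a b d (c * l) (c * m) = c ^ 9 * covDlll a b d l m := by
    simp only [covDlll]; ring
  have h7 : covDllm a b d (c * l) (c * m) = c ^ 9 * covDllm a b d l m := by
    simp only [covDllm]; ring
  have h8 : covDlmm a b d (c * l) (c * m) = c ^ 9 * covDlmm a b d l m := by
    simp only [covDlmm]; ring
  have h9 : covDmmm a b d (c * l) (c * m) = c ^ 9 * covDmmm a b d l m := by
    simp only [covDmmm]; ring
  simp only [covJac, h1, h2, h3, h4, h5, h6, h7, h8, h9]; ring

lemma covHess_one_zero : covHess a b d 1 0 = -17424 * a := by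
  simp only [covHess, covDll, covDlm, covDmm]; ring

lemma covJac_one_zero : covJac a b d 1 0 = -4181760 * b := by
  simp only [covJac, covDl, covDm, covDll, covDlm, covDmm, covDlll, covDllm, covDlmm, covDmmm]; ring

lemma map_covD {S : Type*} [CommRing S] (g : R →+* S) :
    g (covD a b d l m) = covD (g a) (g b) (g d) (g l) (g m) := by
  simp [covD, map_ofNat]

lemma map_covDl {S : Type*} [CommRing S] (g : R →+* S) :
    g (covDl a b d l m) = covDl (g a) (g b) (g d) (g l) (g m) := by
  simp [covDl, map_ofNat]

lemma derivative_covD (L : R[X]) :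
    derivative (covD (C a) (C b) (C d) L (C m)) =
      covDl (C a) (C b) (C d) L (C m) * derivative L := by
  simp [covD, covDl, derivative_pow, map_ofNat]
  ring

end Ring

section Field

variable {K : Type*} [Field K] (a b d M : K)

/-- `1 + M X`. -/
noncomputable def lineL : K[X] := C M * X + 1

/-- `covD` along the line. -/
noncomputable def polyD : K[X] := covD (C a) (C b) (C d) (lineL M) (C M)

/-- `c₄` along the line. -/
noncomputable def polyC₄ : K[X] := C (-17424)⁻¹ * covHess (C a) (C b) (C d) (lineL M) (C M)

/-- `c₆` along the line. -/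
noncomputable def polyC₆ : K[X] := C (-4181760)⁻¹ * covJac (C a) (C b) (C d) (lineL M) (C M)

lemma natDegree_comp_lineL_le {p : K[X]} {n : ℕ} (h : p.natDegree ≤ n) :
    (p.comp (lineL M)).natDegree ≤ n := by
  refine natDegree_comp_le.trans ?_
  have h1 : (lineL M).natDegree ≤ 1 := by simp only [lineL]; compute_degree
  calc p.natDegree * (lineL M).natDegree ≤ n * 1 := Nat.mul_le_mul h h1
    _ = n := mul_one n

lemma natDegree_covHess_le : (covHess (C a) (C b) (C d) X (C M)).natDegree ≤ 20 := by
  have h1 : (covDll (C a) (C b) (C d) X (C M)).natDegree ≤ 10 := by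
    simp only [covDll]; compute_degree
  have h2 : (covDlm (C a) (C b) (C d) X (C M)).natDegree ≤ 10 := by
    simp only [covDlm]; compute_degree; norm_num
  have h3 : (covDmm (C a) (C b) (C d) X (C M)).natDegree ≤ 10 := by
    simp only [covDmm]; compute_degree
  rw [covHess]
  exact natDegree_sub_le_of_le (natDegree_mul_le_of_le h1 h3)
    (natDegree_pow_le_of_le 2 h2) |>.trans (by norm_num)

lemma natDegree_covJac_le : (covJac (C a) (C b) (C d) X (C M)).natDegree ≤ 30 := by
  have h1 : (covDl (C a) (C b) (C d) X (C M)).natDegree ≤ 11 := by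
    simp only [covDl]; compute_degree
  have h2 : (covDm (C a) (C b) (C d) X (C M)).natDegree ≤ 11 := by
    simp only [covDm]; compute_degree; norm_num
  have h3 : (covDll (C a) (C b) (C d) X (C M)).natDegree ≤ 10 := by
    simp only [covDll]; compute_degree
  have h4 : (covDlm (C a) (C b) (C d) X (C M)).natDegree ≤ 10 := by
    simp only [covDlm]; compute_degree; norm_num
  have h5 : (covDmm (C a) (C b) (C d) X (C M)).natDegree ≤ 10 := by
    simp only [covDmm]; compute_degree
  have h6 : (covDlll (C a) (C b) (C d) X (C M)).natDegree ≤ 9 := by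
    simp only [covDlll]; compute_degree
  have h7 : (covDllm (C a) (C b) (C d) X (C M)).natDegree ≤ 9 := by
    simp only [covDllm]; compute_degree; norm_num
  have h8 : (covDlmm (C a) (C b) (C d) X (C M)).natDegree ≤ 9 := by
    simp only [covDlmm]; compute_degree
  have h9 : (covDmmm (C a) (C b) (C d) X (C M)).natDegree ≤ 9 := by
    simp only [covDmmm]; compute_degree
  have hC2 : (2 : K[X]).natDegree ≤ 0 := by compute_degree
  rw [covJac]
  refine natDegree_sub_le_of_le (natDegree_mul_le_of_le h1 (natDegree_sub_le_of_le
    (natDegree_add_le_of_degree_le (n := 19) ?_ ?_) ?_ (n := 19)))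
    (natDegree_mul_le_of_le h2 (natDegree_sub_le_of_le
    (natDegree_add_le_of_degree_le (n := 19) ?_ ?_) ?_ (n := 19))) |>.trans (by norm_num)
  · exact natDegree_mul_le_of_le h7 h5
  · exact natDegree_mul_le_of_le h3 h9
  · exact natDegree_mul_le_of_le (natDegree_mul_le_of_le hC2 h4) h8
  · exact natDegree_mul_le_of_le h6 h5
  · exact natDegree_mul_le_of_le h3 h8
  · exact natDegree_mul_le_of_le (natDegree_mul_le_of_le hC2 h4) h7

lemma natDegree_covD : (covD (C a) (C b) (C d) X (C M)).natDegree = 12 := by
  simp only [covD]; compute_degree!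

lemma comp_eq_line (L : K[X]) :
    (covD (C a) (C b) (C d) X (C M)).comp L = covD (C a) (C b) (C d) L (C M) ∧
    (covHess (C a) (C b) (C d) X (C M)).comp L = covHess (C a) (C b) (C d) L (C M) ∧
    (covJac (C a) (C b) (C d) X (C M)).comp L = covJac (C a) (C b) (C d) L (C M) := by
  simp only [← coe_compRingHom_apply, map_covD, map_covHess, map_covJac]
  simp

lemma natDegree_polyC₄_le : (polyC₄ a b d M).natDegree ≤ 20 := by
  rw [polyC₄, ← (comp_eq_line a b d M (lineL M)).2.1]
  exact (natDegree_C_mul_le _ _).trans
    (natDegree_comp_lineL_le M (natDegree_covHess_le a b d M))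

lemma natDegree_polyC₆_le : (polyC₆ a b d M).natDegree ≤ 30 := by
  rw [polyC₆, ← (comp_eq_line a b d M (lineL M)).2.2]
  exact (natDegree_C_mul_le _ _).trans
    (natDegree_comp_lineL_le M (natDegree_covJac_le a b d M))

lemma natDegree_polyD {M : K} (hM : M ≠ 0) : (polyD a b d M).natDegree = 12 := by
  have h1 : (lineL M).natDegree = 1 := by simp only [lineL]; compute_degree!
  rw [polyD, ← (comp_eq_line a b d M (lineL M)).1, natDegree_comp, natDegree_covD, h1]

end Field

end FermatAgent.Switch
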