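import Fermat.Agent.Switch.Generic
import Fermat.Agent.Switch.Hilbert

/-!
# Some member of the line has a resolvent without integral root
-/

set_option autoImplicit false

namespace FermatAgent.Switch

open Polynomial Filter

variable {K L : Type*} [Field K] [Field L] (g : K →+* L) (a b d M : K)

lemma map_lineL : (lineL M).map g = lineL (g M) := by simp [lineL]

lemma map_polyC₄ : (polyC₄ a b d M).map g = polyC₄ (g a) (g b) (g d) (g M) := by
  rw [polyC₄, polyC₄, ← coe_mapRingHom, map_mul, map_covHess]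
  simp [map_lineL, map_ofNat]

lemma map_polyC₆ : (polyC₆ a b d M).map g = polyC₆ (g a) (g b) (g d) (g M) := by
  rw [polyC₆, polyC₆, ← coe_mapRingHom, map_mul, map_covJac]
  simp [map_lineL, map_ofNat]

/-- If `threeQuartic a b` has a rational root, then for some `n` the resolvent at the parameter
`(1 + M n, M)` has no integral root. -/
theorem exists_no_int_root {a b d c : ℚ} (habd : a ^ 3 - b ^ 2 = 1728 * d) (hd : d ≠ 0)
    (hc : threeQuartic a b c = 0) {M : ℕ} (hM : 0 < M) :
    ∃ n : ℕ, ∀ y : ℤ, threeQuartic ((polyC₄ a b d (M : ℚ)).eval (n : ℚ))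
      ((polyC₆ a b d (M : ℚ)).eval (n : ℚ)) (y : ℚ) ≠ 0 := by
  by_contra hall
  push Not at hall
  choose y hy using hall
  set p : ℚ[X] := C (-17424)⁻¹ * covHess (C a) (C b) (C d) 1 X with hp
  set r : ℚ[X] := C (-4181760)⁻¹ * covJac (C a) (C b) (C d) 1 X with hr
  have hpe : ∀ x : ℚ, p.eval x = (-17424)⁻¹ * covHess a b d 1 x := fun x => by
    rw [hp, eval_mul, eval_C, ← coe_evalRingHom, map_covHess]; simp
  have hre : ∀ x : ℚ, r.eval x = (-4181760)⁻¹ * covJac a b d 1 x := fun x => by
    rw [hr, eval_mul, eval_C, ← coe_evalRingHom, map_covJac]; simp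
  have hp0 : p.eval 0 = a := by
    rw [hpe, covHess_one_zero, inv_mul_cancel_left₀ (by norm_num)]
  have hr0 : r.eval 0 = b := by
    rw [hre, covJac_one_zero, inv_mul_cancel_left₀ (by norm_num)]
  have hne : p.eval 0 ^ 3 ≠ r.eval 0 ^ 2 := by
    rw [hp0, hr0]; exact fun e => hd (by linear_combination (e - habd) / 1728)
  have hy' : ∀ n : ℕ, threeQuartic (p.eval ((M : ℚ) / (M * n + 1)))
      (r.eval ((M : ℚ) / (M * n + 1))) ((y n : ℚ) / (M * n + 1) ^ 10) = 0 := by
    intro n
    have hw : (M : ℚ) * n + 1 ≠ 0 := by positivity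
    have h := hy n
    rw [eval_polyC₄, eval_polyC₆] at h
    set w := (M : ℚ) * n + 1
    have e₁ : covHess a b d w M = w ^ 20 * covHess a b d 1 (M / w) := by
      rw [← covHess_hom, mul_one, mul_div_cancel₀ _ hw]
    have e₂ : covJac a b d w M = w ^ 30 * covJac a b d 1 (M / w) := by
      rw [← covJac_hom, mul_one, mul_div_cancel₀ _ hw]
    refine mul_left_cancel₀ (pow_ne_zero 4 (pow_ne_zero 10 hw)) ?_
    rw [mul_zero, ← threeQuartic_smul, mul_div_cancel₀ _ (pow_ne_zero _ hw), hpe, hre, ← h, e₁, e₂]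
    congr 1 <;> ring
  obtain ⟨P, hP⟩ := frequently_eq_polynomial hM (by rw [hp0, hr0]; exact hc) hne
    (Eventually.of_forall hy')
  have hzero : threeQuartic (polyC₄ a b d (M : ℚ)) (polyC₆ a b d (M : ℚ)) P = 0 := by
    refine eq_zero_of_infinite_isRoot _ (Set.Infinite.mono ?_
      ((Nat.frequently_atTop_iff_infinite.1 hP).image Nat.cast_injective.injOn))
    rintro _ ⟨n, hn, rfl⟩
    rw [Set.mem_ofPred_eq, IsRoot.def, ← coe_evalRingHom, map_threeQuartic]
    simp only [coe_evalRingHom]
    have hn' : (y n : ℚ) = P.eval (n : ℚ) := hn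
    rw [← hn']
    exact hy n
  set j := algebraMap ℚ (AlgebraicClosure ℚ)
  refine no_polynomial_root (K := AlgebraicClosure ℚ) (a := j a) (b := j b) (d := j d)
    (M := j M) ?_ ((_root_.map_ne_zero j).2 hd)
    ((_root_.map_ne_zero j).2 (Nat.cast_ne_zero.2 hM.ne')) (P.map j) ?_
  · simpa [map_ofNat] using congrArg j habd
  · have := congrArg (Polynomial.map j) hzero
    rwa [← coe_mapRingHom, map_threeQuartic, map_zero, coe_mapRingHom, map_polyC₄,
      map_polyC₆] at this

end FermatAgent.Switch
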